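import Fermat.Agent.HyperellipticWeil.Newton
import Fermat.Agent.DavenportHasse.Lifting
import Mathlib.NumberTheory.MulChar.Lemmas
import Mathlib.RingTheory.Radical.Basic
import Mathlib.FieldTheory.IsAlgClosed.Basic

/-!
# The L-polynomial of `x ↦ χ (f x)`

`g ↦ χ (Res (g, f))` on monic polynomials: its sums over the monics of degree at least the number
of distinct roots of `f` vanish, and Newton's identities give the sums over all extensions.
-/

set_option autoImplicit false
set_option linter.unusedSectionVars false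

noncomputable section

namespace FA.CharacterSums

open Polynomial Finset UniqueFactorizationMonoid FA.HyperellipticWeil
open scoped Classical

variable {F : Type*} [Field F] [Fintype F] [DecidableEq F] (χ : MulChar F ℂ)

/-- Some multiplicity in `f` is not divisible by the order of `χ`. -/
def Nondeg (f : F[X]) : Prop :=
  ∃ P ∈ normalizedFactors f, ¬ orderOf χ ∣ (normalizedFactors f).count P

/-- The character of `f` at `g`. -/
def lamC (f g : F[X]) : ℂ := χ (resultant g f g.natDegree f.natDegree)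

/-- The coefficients of the L-polynomial. -/
def lSumC (f : F[X]) (d : ℕ) : ℂ := ∑ g ∈ monics F d, lamC χ f g

/-- The sum over the extension of degree `k`, in terms of the irreducibles. -/
def powSumC (f : F[X]) (k : ℕ) : ℂ :=
  ∑ P ∈ (irr F k).filter (fun P => P.natDegree ∣ k),
    (P.natDegree : ℂ) * lamC χ f P ^ (k / P.natDegree)

/-- The character of `g` modulo `f`. -/
def resC (f g : F[X]) : ℂ := χ (resultant f g f.natDegree g.natDegree)

theorem lamC_one (f : F[X]) : lamC χ f 1 = 1 := by simp [lamC, natDegree_one]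

theorem lSumC_zero (f : F[X]) : lSumC χ f 0 = 1 := by
  rw [lSumC, monics_zero, sum_singleton, lamC_one]

theorem lamC_mul (f : F[X]) {g h : F[X]} (hg : g.Monic) (hh : h.Monic) :
    lamC χ f (g * h) = lamC χ f g * lamC χ f h := by
  rw [lamC, lamC, lamC, hg.natDegree_mul hh, resultant_mul_left g h f _ le_rfl, map_mul]

theorem lamC_pow (f : F[X]) {g : F[X]} (hg : g.Monic) (k : ℕ) :
    lamC χ f (g ^ k) = lamC χ f g ^ k := by
  induction k with
  | zero => simp [lamC_one]
  | succ k ih => rw [pow_succ, lamC_mul χ f (hg.pow k) hg, ih, pow_succ]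

theorem algebraMap_resultant {f : F[X]} (hf : f.Monic) (g : F[X]) :
    algebraMap F (AlgebraicClosure F) (resultant f g f.natDegree g.natDegree) =
      ((f.aroots (AlgebraicClosure F)).map fun α => aeval α g).prod := by
  rw [← resultant_map_map, ← natDegree_map (p := f) (algebraMap F (AlgebraicClosure F)),
    resultant_eq_prod_eval _ _ _ natDegree_map_le (IsAlgClosed.splits _),
    (hf.map _).leadingCoeff, one_pow, one_mul, ← aroots_def]
  exact congrArg Multiset.prod (Multiset.map_congr rfl fun x _ => eval_map_algebraMap _ _)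

variable {χ}

theorem resC_mul {f : F[X]} (hf : f.Monic) (g h : F[X]) :
    resC χ f (g * h) = resC χ f g * resC χ f h := by
  rw [resC, resC, resC, ← map_mul]
  congr 1
  apply (algebraMap F (AlgebraicClosure F)).injective
  simp only [map_mul, algebraMap_resultant hf, ← Multiset.prod_map_mul]

theorem aeval_radical_eq_zero {f : F[X]} (hf : f ≠ 0) {α : AlgebraicClosure F}
    (h : aeval α f = 0) : aeval α (radical f) = 0 := by
  obtain ⟨u, hu⟩ := (prod_normalizedFactors hf)
  rw [← hu, map_mul, mul_eq_zero, map_multiset_prod] at h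
  rcases h with h | h
  · obtain ⟨P, hP, hP0⟩ := Multiset.mem_map.1 (Multiset.prod_eq_zero_iff.1 h)
    obtain ⟨c, hc⟩ := Finset.dvd_prod_of_mem id (mem_primeFactors.2 hP)
    rw [radical, hc, map_mul, id_eq, hP0, zero_mul]
  · exact absurd h (u.isUnit.map (aeval α)).ne_zero

theorem monic_radical (f : F[X]) : (radical f).Monic :=
  monic_prod_of_monic _ _ fun P hP => by
    have h := mem_primeFactors.1 hP
    rw [id_eq, ← normalize_normalized_factor P h]
    exact monic_normalize (irreducible_of_normalized_factor P h).ne_zero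

theorem resC_eq_of_dvd {f : F[X]} (hf : f.Monic) {g g' : F[X]} (h : radical f ∣ g - g') :
    resC χ f g = resC χ f g' := by
  rw [resC, resC]
  congr 1
  apply (algebraMap F (AlgebraicClosure F)).injective
  rw [algebraMap_resultant hf, algebraMap_resultant hf]
  refine congrArg Multiset.prod (Multiset.map_congr rfl fun α hα => ?_)
  obtain ⟨k, hk⟩ := h
  have := congrArg (aeval α) hk
  rwa [map_mul, aeval_radical_eq_zero hf.ne_zero (mem_aroots.1 hα).2, zero_mul, map_sub,
    sub_eq_zero] at this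

theorem isCoprime_radical_of_resC_ne_zero {f u : F[X]} (hf : f.Monic) (hu : resC χ f u ≠ 0) :
    IsCoprime u (radical f) := by
  rw [isCoprime_iff_aeval_ne_zero_of_isAlgClosed F (AlgebraicClosure F)]
  intro α
  by_contra! h
  obtain ⟨k, hk⟩ := (radical_dvd_self : radical f ∣ f)
  refine hu ?_
  rw [resC, show resultant f u f.natDegree u.natDegree = 0 from
    (algebraMap F (AlgebraicClosure F)).injective ?_, MulChar.map_zero]
  rw [algebraMap_resultant hf, map_zero]
  refine Multiset.prod_eq_zero (Multiset.mem_map.2 ⟨α, mem_aroots.2 ⟨hf.ne_zero, ?_⟩, h.1⟩)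
  rw [hk, map_mul, h.2, zero_mul]

theorem exists_resC_ne {f : F[X]} (hf : f.Monic) (hnd : Nondeg χ f) :
    ∃ u, resC χ f u ≠ 1 ∧ resC χ f u ≠ 0 := by
  obtain ⟨P, hP, he⟩ := hnd
  obtain ⟨e, he'⟩ : ∃ e, e = (normalizedFactors f).count P := ⟨_, rfl⟩
  rw [← he'] at he
  have hirr := irreducible_of_normalized_factor P hP
  have hPm : P.Monic := by
    rw [← normalize_normalized_factor P hP]; exact monic_normalize hirr.ne_zero
  obtain ⟨r, hr⟩ : P ^ e ∣ f := by
    rw [he', ← Multiset.prod_replicate, ← (prod_normalizedFactors hf.ne_zero).dvd_iff_dvd_right]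
    exact Multiset.prod_dvd_prod_of_le (Multiset.le_count_iff_replicate_le.1 le_rfl)
  have hrm : r.Monic := (hPm.pow e).of_mul_monic_left (hr ▸ hf)
  have hPr : ¬ P ∣ r := by
    rintro ⟨s, rfl⟩
    have h : P ^ (e + 1) ∣ f := ⟨s, by rw [hr]; ring⟩
    rw [pow_dvd_iff_le_emultiplicity, le_emultiplicity_iff_replicate_le_normalizedFactors hirr
      hf.ne_zero, hPm.normalize_eq_self, ← Multiset.le_count_iff_replicate_le, ← he'] at h
    omega
  obtain ⟨x, y, hxy⟩ : IsCoprime P r := (hirr.coprime_iff_not_dvd).2 hPr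
  -- a value of `χ ^ e` that is not one
  obtain ⟨a, ha⟩ : ∃ a : Fˣ, χ a ^ e ≠ 1 := by
    by_contra! h
    refine he (orderOf_dvd_of_pow_eq_one (MulChar.ext fun a => ?_))
    rw [MulChar.pow_apply_coe, MulChar.one_apply_coe, h a]
  have := Fact.mk hirr
  have : Module.Finite F (AdjoinRoot P) := (AdjoinRoot.powerBasis hirr.ne_zero).finite
  have : Finite (AdjoinRoot P) := Module.finite_of_finite F
  obtain ⟨w, hw⟩ := FiniteField.norm_surjective F (AdjoinRoot P) (a : F)
  obtain ⟨w, rfl⟩ := AdjoinRoot.mk_surjective w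
  refine ⟨w * (y * r) + x * P, ?_⟩
  have h1 : resultant f (w * (y * r) + x * P) f.natDegree (w * (y * r) + x * P).natDegree =
      (a : F) ^ e := by
    have hN : resultant P w P.natDegree w.natDegree = a :=
      (resultant_eq_norm w hPm hirr).trans hw
    apply (algebraMap F (AlgebraicClosure F)).injective
    rw [algebraMap_resultant hf, map_pow, ← hN, algebraMap_resultant hPm, hr,
      aroots_mul (mul_ne_zero (pow_ne_zero _ hirr.ne_zero) hrm.ne_zero), aroots_pow,
      Multiset.map_add, Multiset.prod_add, Multiset.map_nsmul, Multiset.prod_nsmul]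
    have hxy' : ∀ α : AlgebraicClosure F,
        aeval α x * aeval α P + aeval α y * aeval α r = 1 := fun α => by
      rw [← map_mul, ← map_mul, ← map_add, hxy, map_one]
    have h2 : ((r.aroots (AlgebraicClosure F)).map fun α =>
        aeval α (w * (y * r) + x * P)).prod = 1 := by
      refine Multiset.prod_eq_one fun z hz => ?_
      obtain ⟨α, hα, rfl⟩ := Multiset.mem_map.1 hz
      have h := hxy' α
      rw [(mem_aroots.1 hα).2, mul_zero, add_zero] at h
      rw [map_add, map_mul, map_mul, (mem_aroots.1 hα).2, mul_zero, mul_zero, zero_add, map_mul, h]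
    rw [h2, mul_one]
    refine congrArg (fun s => s ^ e)
      (congrArg Multiset.prod (Multiset.map_congr rfl fun α hα => ?_))
    have h := hxy' α
    rw [(mem_aroots.1 hα).2, mul_zero, zero_add] at h
    rw [map_add, map_mul, map_mul, map_mul, (mem_aroots.1 hα).2, mul_zero, add_zero, h, mul_one]
  rw [resC, h1, map_pow]
  exact ⟨ha, pow_ne_zero _ (a.isUnit.map χ).ne_zero⟩

theorem sum_resC_eq_zero {f : F[X]} (hf : f.Monic) (hnd : Nondeg χ f) :
    ∑ r ∈ lows F (radical f).natDegree, resC χ f r = 0 := by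
  obtain ⟨u, hu1, hu0⟩ := exists_resC_ne hf hnd
  obtain ⟨R, hR⟩ : ∃ R, R = radical f := ⟨_, rfl⟩
  have hRm : R.Monic := hR ▸ monic_radical f
  have hcop : IsCoprime u R := hR ▸ isCoprime_radical_of_resC_ne_zero hf hu0
  rw [← hR]
  have hmem : ∀ r ∈ lows F R.natDegree, u * r %ₘ R ∈ lows F R.natDegree := fun r _ => by
    rw [mem_lows, ← degree_eq_natDegree hRm.ne_zero]
    exact degree_modByMonic_lt _ hRm
  have hinj : Set.InjOn (fun r => u * r %ₘ R) (lows F R.natDegree) := by
    intro r hr r' hr' h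
    rw [mem_coe, mem_lows, ← degree_eq_natDegree hRm.ne_zero] at hr hr'
    have h1 : R ∣ u * (r - r') := by
      rw [mul_sub, ← modByMonic_eq_zero_iff_dvd hRm, sub_modByMonic, sub_eq_zero]
      exact h
    exact sub_eq_zero.1 (eq_zero_of_dvd_of_degree_lt (hcop.symm.dvd_of_dvd_mul_left h1)
      ((degree_sub_le _ _).trans_lt (max_lt hr hr')))
  have key : ∑ r ∈ lows F R.natDegree, resC χ f (u * r %ₘ R) =
      ∑ r ∈ lows F R.natDegree, resC χ f r :=
    sum_nbij _ hmem hinj (surjOn_of_injOn_of_card_le _ hmem hinj le_rfl) fun _ _ => rfl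
  have hmul : ∀ r, resC χ f (u * r %ₘ R) = resC χ f u * resC χ f r := fun r => by
    rw [← resC_mul hf]
    refine resC_eq_of_dvd hf ?_
    rw [← hR]
    exact ⟨-(u * r /ₘ R), by linear_combination modByMonic_add_div (u * r) R⟩
  simp only [hmul, ← mul_sum] at key
  exact (mul_left_eq_self₀.1 key).resolve_left hu1

/-- **Orthogonality.** -/
theorem lSumC_eq_zero {f : F[X]} (hf : f.Monic) (hnd : Nondeg χ f) {d : ℕ}
    (hd : (radical f).natDegree ≤ d) : lSumC χ f d = 0 := by
  obtain ⟨R, hR⟩ : ∃ R, R = radical f := ⟨_, rfl⟩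
  have hRm : R.Monic := hR ▸ monic_radical f
  rw [← hR] at hd
  obtain ⟨k, rfl⟩ := Nat.exists_eq_add_of_le hd
  have h : ∀ x ∈ lows F R.natDegree ×ˢ monics F k,
      (x.1 + R * x.2).Monic ∧ (x.1 + R * x.2).natDegree = R.natDegree + k ∧
        (x.1 + R * x.2) %ₘ R = x.1 ∧ (x.1 + R * x.2) /ₘ R = x.2 := by
    intro x hx
    rw [mem_product, mem_lows, mem_monics] at hx
    have h1 : x.1.degree < (R * x.2).degree := by
      rw [degree_mul, degree_eq_natDegree hRm.ne_zero, degree_eq_natDegree hx.2.1.ne_zero,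
        ← Nat.cast_add]
      exact hx.1.trans_le (Nat.cast_le.2 (Nat.le_add_right _ _))
    have h2 := div_modByMonic_unique x.2 x.1 hRm
      ⟨rfl, by rw [degree_eq_natDegree hRm.ne_zero]; exact hx.1⟩
    refine ⟨?_, ?_, h2.2, h2.1⟩
    · rw [add_comm]
      exact (hRm.mul hx.2.1).add_of_left h1
    · rw [natDegree_add_eq_right_of_degree_lt h1, hRm.natDegree_mul hx.2.1, hx.2.2]
  have key : lSumC χ f (R.natDegree + k) = ∑ x ∈ lows F R.natDegree ×ˢ monics F k,
      χ ((-1) ^ ((R.natDegree + k) * f.natDegree)) * resC χ f x.1 := by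
    refine (sum_bij' (fun x _ => x.1 + R * x.2) (fun g _ => (g %ₘ R, g /ₘ R)) ?_ ?_ ?_ ?_ ?_).symm
    · exact fun x hx => mem_monics.2 ⟨(h x hx).1, (h x hx).2.1⟩
    · intro g hg
      rw [mem_monics] at hg
      rw [mem_product, mem_lows, mem_monics, natDegree_divByMonic g hRm, hg.2,
        ← degree_eq_natDegree hRm.ne_zero]
      refine ⟨degree_modByMonic_lt _ hRm, ?_, Nat.add_sub_cancel_left _ _⟩
      rw [Monic, leadingCoeff_divByMonic_of_monic hRm ?_, hg.1.leadingCoeff]
      rw [degree_eq_natDegree hRm.ne_zero, degree_eq_natDegree hg.1.ne_zero, hg.2]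
      exact Nat.cast_le.2 (Nat.le_add_right _ _)
    · exact fun x hx => Prod.ext (h x hx).2.2.1 (h x hx).2.2.2
    · exact fun g _ => modByMonic_add_div g R
    · intro x hx
      rw [resC_eq_of_dvd hf (g' := x.1 + R * x.2) ⟨-x.2, by rw [← hR]; ring⟩, lamC,
        resultant_comm (x.1 + R * x.2), resC, (h x hx).2.1, map_mul]
  rw [key, sum_product]
  simp only [sum_const, ← smul_sum, ← mul_sum, hR, sum_resC_eq_zero hf hnd, mul_zero, smul_zero]

theorem sum_lamC_dvd (f : F[X]) {P : F[X]} (hP : P.Monic) (j d : ℕ) :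
    ∑ g ∈ monics F d, (if P ^ j ∣ g then lamC χ f g else 0) =
      if j * P.natDegree ≤ d then lamC χ f P ^ j * lSumC χ f (d - j * P.natDegree) else 0 := by
  split_ifs with h
  · rw [lSumC, mul_sum, ← sum_filter]
    refine (sum_bij' (fun b _ => P ^ j * b) (fun g _ => g /ₘ P ^ j) ?_ ?_ ?_ ?_ ?_).symm
    · intro b hb
      rw [mem_monics] at hb
      refine mem_filter.2 ⟨mem_monics.2 ⟨(hP.pow j).mul hb.1, ?_⟩, dvd_mul_right _ _⟩
      rw [(hP.pow j).natDegree_mul hb.1, hP.natDegree_pow, hb.2]
      omega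
    · intro g hg
      rw [mem_filter, mem_monics] at hg
      obtain ⟨⟨hgm, rfl⟩, b, rfl⟩ := hg
      have hb : b.Monic := (hP.pow j).of_mul_monic_left hgm
      rw [mul_divByMonic_cancel_left _ (hP.pow j), mem_monics, (hP.pow j).natDegree_mul hb,
        hP.natDegree_pow, Nat.add_sub_cancel_left]
      exact ⟨hb, rfl⟩
    · exact fun b _ => mul_divByMonic_cancel_left _ (hP.pow j)
    · intro g hg
      obtain ⟨b, rfl⟩ := (mem_filter.1 hg).2
      rw [mul_divByMonic_cancel_left _ (hP.pow j)]
    · intro b hb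
      rw [lamC_mul χ f (hP.pow j) (mem_monics.1 hb).1, lamC_pow χ f hP]
  · refine sum_eq_zero fun g hg => if_neg fun hd => h ?_
    rw [mem_monics] at hg
    have := natDegree_le_of_dvd hd hg.1.ne_zero
    rwa [hP.natDegree_pow, hg.2] at this

/-- **Newton's identities.** -/
theorem newton_identityC (f : F[X]) (d : ℕ) :
    (d : ℂ) * lSumC χ f d = ∑ k ∈ Icc 1 d, powSumC χ f k * lSumC χ f (d - k) := by
  have h1 : (d : ℂ) * lSumC χ f d = ∑ P ∈ irr F d, ∑ j ∈ Icc 1 d,
      if j * P.natDegree ≤ d then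
        (P.natDegree : ℂ) * (lamC χ f P ^ j * lSumC χ f (d - j * P.natDegree)) else 0 := by
    rw [lSumC, mul_sum, sum_congr rfl fun g hg => by
      rw [show (d : ℂ) = ∑ P ∈ irr F d, ∑ j ∈ Icc 1 d,
          if P ^ j ∣ g then (P.natDegree : ℂ) else 0 by
        have h := congrArg (Int.cast : ℤ → ℂ)
          (natDegree_eq_sum_dvd (mem_monics.1 hg).1 (mem_monics.1 hg).2)
        push_cast at h
        exact h, sum_mul], sum_comm]
    refine sum_congr rfl fun P hP => ?_
    simp only [sum_mul]
    rw [sum_comm]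
    refine sum_congr rfl fun j _ => ?_
    rw [← mul_ite_zero, ← sum_lamC_dvd f (mem_irr.1 hP).1, mul_sum]
    exact sum_congr rfl fun g _ => by split_ifs <;> simp
  rw [h1]
  simp only [powSumC, sum_mul]
  rw [← sum_product', ← sum_filter, sum_sigma']
  refine sum_nbij' (fun x => ⟨x.2 * x.1.natDegree, x.1⟩) (fun y => (y.2, y.1 / y.2.natDegree))
    ?_ ?_ ?_ ?_ ?_
  · intro x hx
    simp only [mem_filter, mem_product, mem_Icc, mem_sigma] at hx ⊢
    obtain ⟨⟨hP, hj, -⟩, hle⟩ := hx
    rw [mem_irr] at hP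
    have hpos : 1 ≤ x.2 * x.1.natDegree := Nat.mul_pos hj hP.2.1.natDegree_pos
    exact ⟨⟨hpos, hle⟩, mem_irr.2 ⟨hP.1, hP.2.1, Nat.le_mul_of_pos_left _ hj⟩, dvd_mul_left _ _⟩
  · intro y hy
    simp only [mem_filter, mem_product, mem_Icc, mem_sigma] at hy ⊢
    obtain ⟨⟨hk, hkd⟩, hP, hdvd⟩ := hy
    rw [mem_irr] at hP
    refine ⟨⟨mem_irr.2 ⟨hP.1, hP.2.1, hP.2.2.trans hkd⟩,
      Nat.div_pos hP.2.2 hP.2.1.natDegree_pos, (Nat.div_le_self _ _).trans hkd⟩, ?_⟩
    rwa [Nat.div_mul_cancel hdvd]
  · intro x hx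
    simp only [mem_filter, mem_product] at hx
    simp [Nat.mul_div_cancel _ (mem_irr.1 hx.1.1).2.1.natDegree_pos]
  · intro y hy
    simp only [mem_filter, mem_sigma] at hy
    obtain ⟨k, P⟩ := y
    simp [Nat.div_mul_cancel hy.2.2]
  · intro x hx
    simp only [mem_filter, mem_product] at hx
    rw [Nat.mul_div_cancel _ (mem_irr.1 hx.1.1).2.1.natDegree_pos]
    ring

section points

variable {K : Type*} [Field K] [Fintype K] [DecidableEq K] [Algebra F K]

variable (χ) in
theorem normChar_aeval_eq_lamC (f : F[X]) (x : K) :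
    χ (Algebra.norm F (aeval x f)) =
      lamC χ f (minpoly F x) ^ (Module.finrank F K / (minpoly F x).natDegree) := by
  have hint : IsIntegral F x := Algebra.IsIntegral.isIntegral x
  obtain ⟨P, hPdef⟩ : ∃ P, P = minpoly F x := ⟨_, rfl⟩
  rw [← hPdef]
  have hP : P.Monic := hPdef ▸ minpoly.monic hint
  have hirr : Irreducible P := hPdef ▸ minpoly.irreducible hint
  have := Fact.mk hirr
  have h0 : P.eval₂ (Algebra.ofId F K : F →+* K) x = 0 := hPdef ▸ minpoly.aeval F x
  let φ : AdjoinRoot P →ₐ[F] K := AdjoinRoot.liftAlgHom P (Algebra.ofId F K) x h0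
  let _ : Algebra (AdjoinRoot P) K := φ.toRingHom.toAlgebra
  have : IsScalarTower F (AdjoinRoot P) K := IsScalarTower.of_algebraMap_eq fun r =>
    (φ.commutes r).symm
  have : Module.Finite F (AdjoinRoot P) := (AdjoinRoot.powerBasis hirr.ne_zero).finite
  have : Module.Finite (AdjoinRoot P) K := Module.Finite.right F _ K
  have hfin : Module.finrank F (AdjoinRoot P) = P.natDegree :=
    finrank_quotient_span_eq_natDegree
  have hdiv : Module.finrank F K / P.natDegree = Module.finrank (AdjoinRoot P) K := by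
    rw [← Module.finrank_mul_finrank F (AdjoinRoot P) K, hfin,
      Nat.mul_div_cancel_left _ hirr.natDegree_pos]
  have hφ : algebraMap (AdjoinRoot P) K (AdjoinRoot.mk P f) = aeval x f := by
    rw [← AdjoinRoot.aeval_eq]
    exact (aeval_algHom_apply φ _ f).symm.trans (by simp [φ])
  rw [← hφ, ← Algebra.norm_norm (S := AdjoinRoot P), Algebra.norm_algebraMap, map_pow, map_pow,
    ← resultant_eq_norm f hP hirr, hdiv]
  rfl

variable (χ) in
/-- **The point sums.** -/
theorem sum_eq_powSumC (f : F[X]) :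
    ∑ x : K, χ (Algebra.norm F (aeval x f)) = powSumC χ f (Module.finrank F K) := by
  have hmaps : ∀ x ∈ (univ : Finset K), minpoly F x ∈
      (irr F (Module.finrank F K)).filter fun P => P.natDegree ∣ Module.finrank F K := fun x _ => by
    have hint : IsIntegral F x := Algebra.IsIntegral.isIntegral x
    exact mem_filter.2 ⟨mem_irr.2 ⟨minpoly.monic hint, minpoly.irreducible hint,
      Nat.le_of_dvd Module.finrank_pos (minpoly.degree_dvd hint)⟩, minpoly.degree_dvd hint⟩
  rw [← sum_fiberwise_of_maps_to hmaps, powSumC]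
  refine sum_congr rfl fun P hP => ?_
  rw [mem_filter, mem_irr] at hP
  obtain ⟨⟨hPm, hirr, -⟩, hdvd⟩ := hP
  have hcard := card_minpoly_fiber (K := K) hPm hirr hdvd
  rw [sum_congr rfl fun x hx => by
      rw [normChar_aeval_eq_lamC χ f x, (mem_filter.1 hx).2],
    sum_const, hcard, nsmul_eq_mul]

end points

end FA.CharacterSums
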