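import Fermat.Agent.CharacterSums.Stepanov
import Fermat.Agent.CharacterSums.LFunction
import Fermat.Agent.HyperellipticWeil.Main

/-!
# Weil's theorem on multiplicative character sums

Stepanov in every extension bounds the power sums of the reciprocal roots of the L-polynomial, so
they are `≤ √q` in absolute value; there are fewer than the number of distinct roots of `f`.
-/

set_option autoImplicit false
set_option linter.unusedSectionVars false

noncomputable section

namespace FA.CharacterSums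

open Polynomial Finset UniqueFactorizationMonoid FA.HyperellipticWeil FA.DworkRationality
  FA.DavenportHasse
open scoped Classical

variable {F : Type*} [Field F] [Fintype F] [DecidableEq F] {χ : MulChar F ℂ} {f : F[X]}

theorem eq_prod_primeFactors (hf : f.Monic) :
    f = ∏ P ∈ primeFactors f, P ^ (normalizedFactors f).count P := by
  conv_lhs => rw [← hf.normalize_eq_self, ← prod_normalizedFactors_eq hf.ne_zero,
    Finset.prod_multiset_count]
  unfold primeFactors
  congr!

theorem monic_of_mem {P : F[X]} (hP : P ∈ normalizedFactors f) : P.Monic := by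
  rw [← normalize_normalized_factor P hP]
  exact monic_normalize (irreducible_of_normalized_factor P hP).ne_zero

variable {Ω : Type*} [Field Ω] [IsAlgClosed Ω] [Algebra F Ω]

theorem count_aroots_prod {s : Finset F[X]} (hs : ∀ P ∈ s, P.Monic ∧ Irreducible P)
    (e : F[X] → ℕ) {P : F[X]} (hP : P ∈ s) {α : Ω} (hα : aeval α P = 0) :
    ((∏ Q ∈ s, Q ^ e Q).aroots Ω).count α = e P := by
  have hne : ∀ Q ∈ s, Q ^ e Q ≠ 0 := fun Q hQ => pow_ne_zero _ (hs Q hQ).2.ne_zero
  rw [aroots_def, Polynomial.map_prod, roots_prod _ _ (prod_ne_zero_iff.2 fun Q hQ =>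
    (Polynomial.map_ne_zero_iff (algebraMap F Ω).injective).2 (hne Q hQ)), Multiset.count_bind]
  simp only [Polynomial.map_pow, roots_pow, Multiset.count_nsmul]
  rw [← sum_eq_multiset_sum, sum_eq_single P (fun Q hQ hQP => ?_) fun h => absurd hP h]
  · rw [Multiset.count_eq_one_of_mem
      (nodup_roots (PerfectField.separable_of_irreducible (hs P hP).2).map) ?_, mul_one]
    exact mem_aroots.2 ⟨(hs P hP).2.ne_zero, hα⟩
  · rw [Multiset.count_eq_zero.2 fun h => hQP ?_, mul_zero]
    rw [minpoly.eq_of_irreducible_of_monic (hs Q hQ).2 (mem_aroots.1 h).2 (hs Q hQ).1,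
      minpoly.eq_of_irreducible_of_monic (hs P hP).2 hα (hs P hP).1]

/-- `f = h ^ g` with `g ∣ d` and `h` generic of order `d / g` in every extension. -/
theorem exists_generic (hf : f.Monic) (hnd : Nondeg χ f) :
    ∃ (g : ℕ) (h : F[X]), g ≠ 0 ∧ f = h ^ g ∧ g ∣ orderOf χ ∧ 2 ≤ orderOf χ / g ∧
      ∀ (K : Type _) [Field K] [Algebra F K],
        Generic (orderOf χ / g) (h.map (algebraMap F K)) := by
  obtain ⟨e, he⟩ : ∃ e : F[X] → ℕ, e = fun P => (normalizedFactors f).count P := ⟨_, rfl⟩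
  obtain ⟨d, hd⟩ : ∃ d, d = orderOf χ := ⟨_, rfl⟩
  have hd0 : 0 < d := hd ▸ χ.orderOf_pos
  obtain ⟨G, hG⟩ : ∃ G, G = (primeFactors f).gcd e := ⟨_, rfl⟩
  obtain ⟨g, hg⟩ : ∃ g, g = Nat.gcd d G := ⟨_, rfl⟩
  have hgd : g ∣ d := hg ▸ Nat.gcd_dvd_left _ _
  have hge : ∀ P ∈ primeFactors f, g ∣ e P := fun P hP =>
    hg ▸ (Nat.gcd_dvd_right _ _).trans (hG ▸ Finset.gcd_dvd hP)
  obtain ⟨h, hh⟩ : ∃ h, h = ∏ P ∈ primeFactors f, P ^ (e P / g) := ⟨_, rfl⟩
  have hs : ∀ P ∈ primeFactors f, P.Monic ∧ Irreducible P := fun P hP =>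
    ⟨monic_of_mem (mem_primeFactors.1 hP),
      irreducible_of_normalized_factor P (mem_primeFactors.1 hP)⟩
  refine ⟨g, h, (Nat.pos_of_dvd_of_pos hgd hd0).ne', ?_, hd ▸ hgd, ?_,
    fun K _ _ k hk hkd c u hku => ?_⟩
  · conv_lhs => rw [eq_prod_primeFactors hf]
    rw [hh, ← prod_pow]
    refine prod_congr rfl fun P hP => ?_
    rw [← pow_mul, Nat.div_mul_cancel (hge P hP), he]
  · rw [← hd]
    by_contra hlt
    obtain ⟨P, hP, hPd⟩ := hnd
    refine hPd ?_
    have h1 := Nat.div_mul_cancel hgd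
    have h2 : 0 < d / g := Nat.div_pos (Nat.le_of_dvd hd0 hgd) (Nat.pos_of_dvd_of_pos hgd hd0)
    rw [show d / g = 1 by omega, one_mul] at h1
    have h3 := hge P (mem_primeFactors.2 hP)
    rw [h1, hd, he] at h3
    exact h3
  · rw [← hd] at hku hkd
    have hc : c ≠ 0 := by
      rintro rfl
      rw [C_0, zero_mul] at hku
      refine pow_ne_zero k ((Polynomial.map_ne_zero_iff (algebraMap F K).injective).2 ?_) hku
      rw [hh]
      exact prod_ne_zero_iff.2 fun P hP => pow_ne_zero _ (hs P hP).2.ne_zero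
    have hkey : ∀ P ∈ primeFactors f, d ∣ k * e P := by
      intro P hP
      obtain ⟨α, hα⟩ : ∃ α : AlgebraicClosure K, aeval α P = 0 :=
        IsAlgClosed.exists_aeval_eq_zero _ P (hs P hP).2.degree_pos.ne'
      have h1 := congrArg (fun w : K[X] => (w.aroots (AlgebraicClosure K)).count α) hku
      simp only [← Polynomial.map_pow, aroots_map, aroots_C_mul _ hc, aroots_pow,
        Multiset.count_nsmul, hh, count_aroots_prod hs _ hP hα] at h1
      have h2 : d / g * g ∣ k * (e P / g) * g := Nat.mul_dvd_mul_right ⟨_, h1⟩ g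
      rwa [Nat.div_mul_cancel hgd, mul_assoc, Nat.div_mul_cancel (hge P hP)] at h2
    have h1 : d ∣ k * G := by
      have h := Finset.dvd_gcd hkey
      rwa [Finset.gcd_mul_left, ← hG, normalize_eq] at h
    have h2 : d / g * g ∣ k * g := by
      rw [Nat.div_mul_cancel hgd, hg, ← Nat.gcd_mul_left]
      exact Nat.dvd_gcd (dvd_mul_left d k) h1
    exact absurd
      (Nat.le_of_dvd hk (Nat.dvd_of_mul_dvd_mul_right (Nat.pos_of_dvd_of_pos hgd hd0) h2))
      (not_le.2 hkd)

theorem orderOf_normChar (K : Type*) [Field K] [Fintype K] [Algebra F K] (ψ : MulChar F ℂ) :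
    orderOf (normChar K ψ) = orderOf ψ := by
  refine orderOf_eq_orderOf_iff.2 fun n => ?_
  rw [MulChar.ext_iff, MulChar.ext_iff]
  refine ⟨fun h a => ?_, fun h a => ?_⟩
  · obtain ⟨b, hb⟩ := FiniteField.norm_surjective F K (a : F)
    have hb0 : b ≠ 0 := fun e => a.ne_zero (by rw [← hb, e, Algebra.norm_zero])
    have := h (Units.mk0 b hb0)
    rw [MulChar.pow_apply_coe, MulChar.one_apply_coe, normChar_apply, Units.val_mk0, hb] at this
    rw [MulChar.pow_apply_coe, MulChar.one_apply_coe, this]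
  · have := h (Units.mk0 _ (Algebra.norm_ne_zero_iff.2 a.ne_zero))
    rw [MulChar.pow_apply_coe, MulChar.one_apply_coe, Units.val_mk0] at this
    rw [MulChar.pow_apply_coe, MulChar.one_apply_coe, normChar_apply, this]

theorem norm_powSumC_le (hf : f.Monic) (hnd : Nondeg χ f) {n : ℕ} (hn : 1 ≤ n) :
    ‖powSumC χ f n‖ ≤
      20 * orderOf χ * (f.natDegree + 1) * Real.sqrt (Fintype.card F) ^ n := by
  classical
  have : Fact (ringChar F).Prime := ⟨CharP.char_is_prime F _⟩
  have : NeZero n := ⟨by omega⟩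
  let K := FiniteField.Extension F (ringChar F) n
  let _ : Fintype K := Fintype.ofFinite K
  obtain ⟨g, h, hg0, hfh, hgd, hd2, hgen⟩ := exists_generic hf hnd
  obtain ⟨d, hd⟩ : ∃ d, d = orderOf χ / g := ⟨_, rfl⟩
  rw [← hd] at hd2
  have : NeZero d := ⟨by omega⟩
  have hord : d = orderOf (normChar K (χ ^ g)) := by
    rw [orderOf_normChar, orderOf_pow' _ hg0, Nat.gcd_eq_right hgd, hd]
  have h1 := norm_sum_le (f := h.map (algebraMap F K)) (normChar K (χ ^ g)) hord hd2
    (hd ▸ hgen K)
  have hsum : ∑ x : K, normChar K (χ ^ g) ((h.map (algebraMap F K)).eval x) = powSumC χ f n := by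
    have h3 := sum_eq_powSumC (K := K) χ f
    rw [FiniteField.finrank_extension F (ringChar F) n] at h3
    rw [← h3]
    refine sum_congr rfl fun x _ => ?_
    rw [normChar_apply, MulChar.pow_apply' _ hg0, eval_map_algebraMap, hfh, map_pow, map_pow,
      map_pow]
  rw [hsum, natDegree_map] at h1
  have hc : Fintype.card K = Fintype.card F ^ n := by
    rw [Fintype.card_eq_nat_card, Fintype.card_eq_nat_card, FiniteField.natCard_extension]
  rw [hc, Nat.cast_pow, Real.sqrt_eq_rpow, ← Real.rpow_natCast, ← Real.rpow_mul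
    (Nat.cast_nonneg _), mul_comm (n : ℝ), Real.rpow_mul (Nat.cast_nonneg _), Real.rpow_natCast,
    ← Real.sqrt_eq_rpow] at h1
  refine h1.trans (mul_le_mul_of_nonneg_right ?_ (by positivity))
  refine mul_le_mul ?_ ?_ (by positivity) (by positivity)
  · exact mul_le_mul_of_nonneg_left (Nat.cast_le.2 (hd ▸ Nat.div_le_self _ _)) (by norm_num)
  · refine add_le_add_left (Nat.cast_le.2 ?_) _
    rw [hfh, natDegree_pow]
    exact Nat.le_mul_of_pos_left _ (Nat.pos_of_ne_zero hg0)

variable (χ f) in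
/-- The L-polynomial. -/
def lPolyC : ℂ[X] := ∑ i ∈ range (radical f).natDegree, Polynomial.C (lSumC χ f i) * X ^ i

theorem coeff_lPolyC (hf : f.Monic) (hnd : Nondeg χ f) (i : ℕ) :
    (lPolyC χ f).coeff i = lSumC χ f i := by
  rw [lPolyC, finsetSum_coeff]
  simp only [coeff_C_mul_X_pow]
  rw [Finset.sum_ite_eq, if_congr mem_range rfl rfl]
  split_ifs with h
  · rfl
  · exact (lSumC_eq_zero hf hnd (not_lt.1 h)).symm

variable (χ f) in
/-- The reciprocal roots. -/
def lRootsC : Multiset ℂ := (lPolyC χ f).reverse.roots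

theorem card_lRootsC_le : Multiset.card (lRootsC χ f) ≤ (radical f).natDegree - 1 := by
  refine (card_roots' _).trans ((reverse_natDegree_le _).trans ?_)
  refine natDegree_sum_le_of_forall_le _ _ fun i hi => (natDegree_C_mul_X_pow_le _ _).trans ?_
  rw [mem_range] at hi
  omega

theorem coe_eq_prod_roots_reverse {P : ℂ[X]} (h : P.coeff 0 = 1) :
    (P : PowerSeries ℂ) =
      (P.reverse.roots.map fun x => 1 - PowerSeries.C x * PowerSeries.X).prod := by
  have h0 : P.natTrailingDegree = 0 :=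
    natTrailingDegree_eq_zero.2 (Or.inr (by rw [h]; exact one_ne_zero))
  have hm : P.reverse.Monic := by rw [Monic, reverse_leadingCoeff, trailingCoeff, h0, h]
  have hd : P.reverse.natDegree = P.natDegree := by rw [reverse_natDegree, h0, Nat.sub_zero]
  have hP : P.reverse.reverse = P := by
    rw [Polynomial.reverse, hd, Polynomial.reverse, reflect_reflect]
  conv_lhs => rw [← hP, (IsAlgClosed.splits P.reverse).eq_prod_roots_of_monic hm]
  rw [← prod_one_sub_eq_reverse, ← Polynomial.coeToPowerSeries.ringHom_apply, map_multiset_prod,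
    Multiset.map_map]
  simp

theorem powSumC_eq_neg (hf : f.Monic) (hnd : Nondeg χ f) {n : ℕ} (hn : 1 ≤ n) :
    powSumC χ f n = -((lRootsC χ f).map (· ^ n)).sum := by
  obtain ⟨D, hD⟩ : ∃ D : PowerSeries ℂ, D = (lPolyC χ f : PowerSeries ℂ) := ⟨_, rfl⟩
  have hcoeff : ∀ i, PowerSeries.coeff i D = lSumC χ f i := fun i => by
    rw [hD, Polynomial.coeff_coe, coeff_lPolyC hf hnd]
  have hne : D ≠ 0 := fun h => by
    have := hcoeff 0
    rw [h, map_zero, lSumC_zero] at this
    exact zero_ne_one this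
  have h1 : PowerSeries.derivative ℂ D = D * logSeries (powSumC χ f) := by
    ext j
    rw [PowerSeries.coeff_derivative, PowerSeries.coeff_mul,
      Finset.Nat.sum_antidiagonal_eq_sum_range_succ
        (fun a b => PowerSeries.coeff a D * PowerSeries.coeff b (logSeries (powSumC χ f)))]
    have h2 := newton_identityC (χ := χ) f (j + 1)
    push_cast at h2
    rw [hcoeff, mul_comm, h2, show Icc 1 (j + 1) = Ico 1 (j + 1 + 1) by ext; simp,
      sum_Ico_eq_sum_range, Nat.add_sub_cancel]
    rw [← sum_range_reflect]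
    refine sum_congr rfl fun i hi => ?_
    rw [mem_range] at hi
    simp only [logSeries, PowerSeries.coeff_mk, hcoeff]
    rw [show 1 + (j + 1 - 1 - i) = j - i + 1 by omega, show j + 1 - (j - i + 1) = i by omega,
      mul_comm]
  have h2 := derivative_prod_one_sub (lRootsC χ f)
  rw [lRootsC, ← coe_eq_prod_roots_reverse (by rw [coeff_lPolyC hf hnd, lSumC_zero]), ← hD, h1,
    ← lRootsC, mul_comm, ← neg_mul] at h2
  obtain ⟨j, rfl⟩ := Nat.exists_eq_add_of_le' hn
  simpa [logSeries] using congrArg (PowerSeries.coeff j) (mul_right_cancel₀ hne h2)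

/-- **The Riemann hypothesis.** -/
theorem norm_lRootsC_le (hf : f.Monic) (hnd : Nondeg χ f) {a : ℂ} (ha : a ∈ lRootsC χ f) :
    ‖a‖ ≤ Real.sqrt (Fintype.card F) := by
  refine norm_le_of_powerSums (C := 20 * orderOf χ * (f.natDegree + 1))
    (Real.sqrt_pos.2 (Nat.cast_pos.2 Fintype.card_pos)) (fun n hn => ?_) ha
  rw [← norm_neg, ← powSumC_eq_neg hf hnd hn]
  exact norm_powSumC_le hf hnd hn

theorem norm_powSumC_le_sharp (hf : f.Monic) (hnd : Nondeg χ f) {n : ℕ} (hn : 1 ≤ n) :
    ‖powSumC χ f n‖ ≤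
      ((radical f).natDegree - 1 : ℕ) * Real.sqrt (Fintype.card F) ^ n := by
  rw [powSumC_eq_neg hf hnd hn, norm_neg]
  refine (norm_multiset_sum_le _).trans ?_
  rw [Multiset.map_map]
  refine ((Multiset.sum_le_card_nsmul _ (Real.sqrt (Fintype.card F) ^ n) fun x hx => ?_)).trans ?_
  · obtain ⟨a, ha, rfl⟩ := Multiset.mem_map.1 hx
    simp only [Function.comp_apply, norm_pow]
    exact pow_le_pow_left₀ (norm_nonneg _) (norm_lRootsC_le hf hnd ha) _
  · rw [Multiset.card_map, nsmul_eq_mul]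
    exact mul_le_mul_of_nonneg_right (Nat.cast_le.2 card_lRootsC_le) (by positivity)

theorem nondeg_mul_C {c : F} (hc : c ≠ 0) (hnd : Nondeg χ f) : Nondeg χ (f * Polynomial.C c) := by
  rwa [Nondeg, (associated_mul_unit_left f _ (isUnit_C.2 (Ne.isUnit hc))).normalizedFactors_eq]

theorem Nondeg.ne_zero (hnd : Nondeg χ f) : f ≠ 0 := by
  rintro rfl
  obtain ⟨P, hP, -⟩ := hnd
  simp at hP

/-- **Weil's bound, exact.** -/
theorem norm_sum_mulChar_le (hnd : Nondeg χ f) :
    ‖∑ x : F, χ (f.eval x)‖ ≤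
      ((radical f).natDegree - 1 : ℕ) * Real.sqrt (Fintype.card F) := by
  have hf0 := hnd.ne_zero
  obtain ⟨c, hc⟩ : ∃ c, c = f.leadingCoeff⁻¹ := ⟨_, rfl⟩
  have hc0 : c ≠ 0 := hc ▸ inv_ne_zero (leadingCoeff_ne_zero.2 hf0)
  have hm : (f * Polynomial.C c).Monic := hc ▸ monic_mul_leadingCoeff_inv hf0
  have h := norm_powSumC_le_sharp hm (nondeg_mul_C hc0 hnd) le_rfl
  rw [pow_one, radical_mul_of_isUnit_right (isUnit_C.2 (Ne.isUnit hc0)),
    ← Module.finrank_self F, ← sum_eq_powSumC (K := F), Module.finrank_self] at h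
  refine le_trans (le_of_eq ?_) h
  simp only [coe_aeval_eq_eval, Algebra.norm_self, MonoidHom.id_apply, eval_C, map_mul,
    ← sum_mul, norm_mul]
  rw [Complex.norm_eq_one_of_pow_eq_one (n := Fintype.card F - 1) (ζ := χ c)
    (by rw [← map_pow, FiniteField.pow_card_sub_one_eq_one c hc0, map_one])
    (Nat.sub_ne_zero_of_lt Fintype.one_lt_card), mul_one]

end FA.CharacterSums
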