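import Fermat.Agent.CharacterSums.Main
import Fermat.Agent.FermatCount.Basic

/-!
# Superelliptic curves and patterns of character values

The solutions of `y ^ d = f x` are counted by the sums `∑_x χ (f x)`, `χ ^ d = 1`; the weights
`∏_i ∑_(j < d) (χ (x + a i) / ζ i) ^ j` detect the patterns.
-/

set_option autoImplicit false
set_option linter.unusedSectionVars false

noncomputable section

namespace FA.CharacterSums

open Polynomial Finset UniqueFactorizationMonoid
open scoped Classical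

variable {F : Type*} [Field F] [Fintype F] [DecidableEq F]

theorem nondeg_of_not_pow {χ : MulChar F ℂ} {f : F[X]}
    (h : ¬ ∃ (c : F) (u : F[X]), f = Polynomial.C c * u ^ orderOf χ) : Nondeg χ f := by
  have hf0 : f ≠ 0 := fun e => h ⟨0, 0, by simp [e]⟩
  by_contra hnd
  simp only [Nondeg, not_exists, not_and, not_not] at hnd
  obtain ⟨v, hv⟩ := prod_normalizedFactors hf0
  obtain ⟨c, -, hc⟩ := isUnit_iff.1 v.isUnit
  refine h ⟨c, ∏ P ∈ (normalizedFactors f).toFinset,
    P ^ ((normalizedFactors f).count P / orderOf χ), ?_⟩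
  rw [hc, ← prod_pow, prod_congr rfl fun P hP => by
    rw [← pow_mul, Nat.div_mul_cancel (hnd P (Multiset.mem_toFinset.1 hP))],
    ← prod_multiset_count, mul_comm, hv]

theorem nondeg_iff_not_pow {χ : MulChar F ℂ} {f : F[X]} (hf : f.Monic) :
    Nondeg χ f ↔ ¬ ∃ u : F[X], f = u ^ orderOf χ := by
  refine ⟨fun ⟨P, hP, hPd⟩ ⟨u, hu⟩ => hPd ?_, fun h => nondeg_of_not_pow fun ⟨c, u, hu⟩ => h ?_⟩
  · rw [hu, normalizedFactors_pow, Multiset.count_nsmul]
    exact dvd_mul_right _ _
  · have hu0 : u ≠ 0 := fun e => hf.ne_zero (by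
      rw [hu, e, zero_pow χ.orderOf_pos.ne', mul_zero])
    refine ⟨u * Polynomial.C u.leadingCoeff⁻¹, ?_⟩
    have hm : (u * Polynomial.C u.leadingCoeff⁻¹).Monic := monic_mul_leadingCoeff_inv hu0
    refine eq_of_monic_of_associated hf (hm.pow _) ?_
    rw [hu, mul_comm]
    exact (associated_mul_unit_left _ _ (isUnit_C.2 (Ne.isUnit fun e => hf.ne_zero (by
      rw [hu, e, C_0, zero_mul])))).trans ((associated_mul_unit_left _ _ (isUnit_C.2
        (Ne.isUnit (inv_ne_zero (leadingCoeff_ne_zero.2 hu0))))).symm.pow_pow)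

/-- The distinct roots. -/
theorem card_aroots_eq_natDegree_radical {f : F[X]} (hf : f ≠ 0) :
    (f.aroots (AlgebraicClosure F)).toFinset.card = (radical f).natDegree := by
  have hR : radical f ≠ 0 := radical_ne_zero
  have hsep : (radical f).Separable :=
    PerfectField.separable_iff_squarefree.2 squarefree_radical
  have h : (f.aroots (AlgebraicClosure F)).toFinset =
      ((radical f).aroots (AlgebraicClosure F)).toFinset := by
    ext α
    simp only [Multiset.mem_toFinset, mem_aroots]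
    refine ⟨fun h => ⟨hR, aeval_radical_eq_zero hf h.2⟩, fun h => ⟨hf, ?_⟩⟩
    obtain ⟨k, hk⟩ := (radical_dvd_self : radical f ∣ f)
    rw [hk, map_mul, h.2, zero_mul]
  rw [h, Multiset.toFinset_card_of_nodup (nodup_roots hsep.map),
    ← (IsAlgClosed.splits _).natDegree_eq_card_roots, natDegree_map]

theorem norm_sum_le_natDegree {χ : MulChar F ℂ} (hχ : χ ≠ 1) {f : F[X]} (hsq : Squarefree f)
    (hm : 1 ≤ f.natDegree) :
    ‖∑ x : F, χ (f.eval x)‖ ≤ (f.natDegree - 1 : ℕ) * Real.sqrt (Fintype.card F) := by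
  have hnd : Nondeg χ f := by
    refine nondeg_of_not_pow fun ⟨c, u, hu⟩ => ?_
    have h2 : 2 ≤ orderOf χ := by
      have := χ.orderOf_pos
      have : orderOf χ ≠ 1 := fun e => hχ (orderOf_eq_one_iff.1 e)
      omega
    have hu1 : IsUnit u := hsq u (by
      rw [hu, ← pow_two]
      exact (pow_dvd_pow u h2).mul_left _)
    obtain ⟨a, -, rfl⟩ := isUnit_iff.1 hu1
    rw [hu, ← C_pow, ← C_mul, natDegree_C] at hm
    omega
  refine (norm_sum_mulChar_le hnd).trans (mul_le_mul_of_nonneg_right (Nat.cast_le.2 ?_)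
    (Real.sqrt_nonneg _))
  exact Nat.sub_le_sub_right (natDegree_le_of_dvd radical_dvd_self hsq.ne_zero) 1

theorem abs_card_points_sub_le {d : ℕ} (hd : d ∣ Fintype.card F - 1) {f : F[X]}
    (hsq : Squarefree f) (hm : 1 ≤ f.natDegree) :
    |((univ.filter fun z : F × F => z.2 ^ d = f.eval z.1).card : ℝ) - Fintype.card F| ≤
      (d - 1 : ℕ) * ((f.natDegree - 1 : ℕ) * Real.sqrt (Fintype.card F)) := by
  have hd0 : 0 < d := Nat.pos_of_dvd_of_pos hd (Nat.sub_pos_of_lt Fintype.one_lt_card)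
  have hcount : ∀ x : F, ((univ.filter fun y : F => y ^ d = f.eval x).card : ℂ) =
      1 + ∑ χ ∈ (FA.FermatCount.killed F d).erase 1, χ (f.eval x) := by
    intro x
    rcases eq_or_ne (f.eval x) 0 with h | h
    · rw [h, sum_eq_zero fun χ _ => MulChar.map_zero χ, add_zero,
        show (univ.filter fun y : F => y ^ d = 0) = {0} by
          ext y; simp [pow_eq_zero_iff hd0.ne'], card_singleton, Nat.cast_one]
    · rw [show (univ.filter fun y : F => y ^ d = f.eval x) = FA.FermatCount.roots F d (f.eval x) by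
        ext y; simp [FA.FermatCount.mem_roots], FA.FermatCount.card_roots_eq_sum hd0 h,
        ← add_sum_erase _ _ FA.FermatCount.one_mem_killed, MulChar.one_apply (Ne.isUnit h)]
  have e : ((univ.filter fun z : F × F => z.2 ^ d = f.eval z.1).card : ℂ) - Fintype.card F =
      ∑ χ ∈ (FA.FermatCount.killed F d).erase 1, ∑ x : F, χ (f.eval x) := by
    rw [card_filter, Fintype.sum_prod_type, Nat.cast_sum]
    simp only [← card_filter]
    rw [sum_congr rfl fun x _ => hcount x, sum_add_distrib, sum_const, card_univ, nsmul_one,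
      add_sub_cancel_left, sum_comm]
  rw [← Real.norm_eq_abs, ← Complex.norm_real, Complex.ofReal_sub, Complex.ofReal_natCast,
    Complex.ofReal_natCast, e]
  refine (norm_sum_le_of_le _ fun χ hχ =>
    norm_sum_le_natDegree (mem_erase.1 hχ).1 hsq hm).trans ?_
  rw [sum_const, nsmul_eq_mul, card_erase_of_mem FA.FermatCount.one_mem_killed,
    FA.FermatCount.card_killed, Nat.gcd_eq_left hd]

theorem exists_pattern {χ : MulChar F ℂ} {k : ℕ} (a : Fin k → F) (ha : Function.Injective a)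
    (ζ : Fin k → ℂ) (hζ : ∀ i, ζ i ^ orderOf χ = 1)
    (hq : (2 * k * orderOf χ ^ k) ^ 2 < Fintype.card F) : ∃ x : F, ∀ i, χ (x + a i) = ζ i := by
  obtain ⟨d, hd⟩ : ∃ d, d = orderOf χ := ⟨_, rfl⟩
  rw [← hd] at hζ hq
  have hd0 : 0 < d := hd ▸ χ.orderOf_pos
  have hζ1 : ∀ i, ‖ζ i‖ = 1 := fun i => Complex.norm_eq_one_of_pow_eq_one (hζ i) hd0.ne'
  have hζ0 : ∀ i, ζ i ≠ 0 := fun i e => by simpa [e] using hζ1 i
  by_contra! hno
  obtain ⟨w, hw⟩ : ∃ w : F → ℂ,
      w = fun x => ∏ i, ∑ j : Fin d, (χ (x + a i) / ζ i) ^ (j : ℕ) := ⟨_, rfl⟩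
  obtain ⟨Z, hZ⟩ : ∃ Z : Finset F, Z = univ.image fun i => -a i := ⟨_, rfl⟩
  have hb : ∀ (x : F) (i : Fin k) (j : ℕ), ‖(χ (x + a i) / ζ i) ^ j‖ ≤ 1 := fun x i j => by
    rw [norm_pow, norm_div, hζ1, div_one]
    exact pow_le_one₀ (norm_nonneg _) (norm_mulChar_le χ _)
  have hZb : ∀ x, ‖w x‖ ≤ if x ∈ Z then (d : ℝ) ^ k else 0 := by
    intro x
    rw [hw]
    simp only
    split_ifs with hx
    · rw [norm_prod]
      refine (prod_le_prod (g := fun _ => (d : ℝ)) (fun i _ => norm_nonneg _) fun i _ => ?_).trans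
        (le_of_eq (by simp))
      exact (norm_sum_le_of_le _ fun (j : Fin d) _ => hb x i (j : ℕ)).trans (le_of_eq (by simp))
    · obtain ⟨i, hi⟩ := hno x
      have h0 : x + a i ≠ 0 := fun h => hx (hZ ▸ mem_image.2
        ⟨i, mem_univ _, (eq_neg_of_add_eq_zero_left h).symm⟩)
      rw [norm_le_zero_iff]
      refine prod_eq_zero (mem_univ i) ?_
      rw [Fin.sum_univ_eq_sum_range (fun j => (χ (x + a i) / ζ i) ^ j) d,
        geom_sum_eq (fun e => hi ((div_eq_one_iff_eq (hζ0 i)).1 e)), div_pow, hζ i, div_one, hd,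
        ← MulChar.pow_apply' _ χ.orderOf_pos.ne', pow_orderOf_eq_one,
        MulChar.one_apply (Ne.isUnit h0), sub_self, zero_div]
  have hup : ‖∑ x, w x‖ ≤ k * (d : ℝ) ^ k := by
    refine (_root_.norm_sum_le _ _).trans ((sum_le_sum fun x _ => hZb x).trans ?_)
    rw [sum_ite_mem, univ_inter, sum_const, nsmul_eq_mul]
    refine mul_le_mul_of_nonneg_right (Nat.cast_le.2 ?_) (by positivity)
    exact (hZ ▸ card_image_le).trans (by simp)
  obtain ⟨T, hT⟩ : ∃ T : (Fin k → Fin d) → ℂ,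
      T = fun J => ∑ x, ∏ i, (χ (x + a i) / ζ i) ^ (J i : ℕ) := ⟨_, rfl⟩
  have hsum : ∑ x, w x = ∑ J, T J := by
    simp only [hw, hT, prod_univ_sum, Fintype.piFinset_univ]
    exact sum_comm
  obtain ⟨J₀, hJ₀⟩ : ∃ J₀ : Fin k → Fin d, J₀ = fun _ => ⟨0, hd0⟩ := ⟨_, rfl⟩
  have hT0 : T J₀ = Fintype.card F := by simp [hT, hJ₀]
  have hTb : ∀ J, J ≠ J₀ → ‖T J‖ ≤ k * Real.sqrt (Fintype.card F) := by
    intro J hJ
    obtain ⟨g, hg⟩ : ∃ g : F[X], g = ∏ i, (X + Polynomial.C (a i)) ^ (J i : ℕ) := ⟨_, rfl⟩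
    have hgm : g.Monic := hg ▸ monic_prod_of_monic _ _ fun i _ => (monic_X_add_C _).pow _
    have hroots : g.roots = ∑ i, (J i : ℕ) • ({-a i} : Multiset F) := by
      rw [hg, roots_prod _ _ (prod_ne_zero_iff.2 fun i _ => pow_ne_zero _ (X_add_C_ne_zero _))]
      simp only [roots_pow, roots_X_add_C]
      rfl
    have hnd : Nondeg χ g := by
      refine (nondeg_iff_not_pow hgm).2 fun ⟨u, hu⟩ => hJ (funext fun i => ?_)
      have h1 := congrArg (fun v : F[X] => v.roots.count (-a i)) hu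
      simp only [hroots, Multiset.count_sum', Multiset.count_nsmul, Multiset.count_singleton,
        neg_inj, ha.eq_iff, mul_ite, mul_one, mul_zero, sum_ite_eq, mem_univ, if_true,
        roots_pow] at h1
      rw [hJ₀, Fin.ext_iff]
      exact Nat.eq_zero_of_dvd_of_lt ⟨_, h1⟩ (hd ▸ (J i).2)
    have hcard : (g.aroots (AlgebraicClosure F)).toFinset.card ≤ k := by
      refine le_trans (card_le_card fun y hy => ?_) ((card_image_le (s := univ)
        (f := fun i => algebraMap F (AlgebraicClosure F) (-a i))).trans (by simp))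
      rw [Multiset.mem_toFinset, mem_aroots, hg, map_prod, prod_eq_zero_iff] at hy
      obtain ⟨-, i, -, hi⟩ := hy
      rw [map_pow] at hi
      have hi' := eq_zero_of_pow_eq_zero hi
      rw [map_add, aeval_X, aeval_C, ← eq_neg_iff_add_eq_zero] at hi'
      exact mem_image.2 ⟨i, mem_univ _, by rw [map_neg, hi']⟩
    rw [card_aroots_eq_natDegree_radical hgm.ne_zero] at hcard
    have h := (norm_sum_mulChar_le hnd).trans (mul_le_mul_of_nonneg_right
      (Nat.cast_le.2 ((Nat.sub_le _ _).trans hcard)) (Real.sqrt_nonneg _))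
    refine le_trans (le_of_eq ?_) h
    have e : T J = (∏ i, (ζ i ^ (J i : ℕ))⁻¹) * ∑ x, χ (g.eval x) := by
      rw [hT, mul_sum]
      refine sum_congr rfl fun x _ => ?_
      rw [hg, eval_prod, map_prod, ← prod_mul_distrib]
      refine prod_congr rfl fun i _ => ?_
      rw [eval_pow, eval_add, eval_X, eval_C, map_pow, div_pow, inv_mul_eq_div]
    rw [e, norm_mul, norm_prod, prod_eq_one fun i _ => by rw [norm_inv, norm_pow, hζ1, one_pow,
      inv_one], one_mul]
  have hlow : (Fintype.card F : ℝ) - (d : ℝ) ^ k * (k * Real.sqrt (Fintype.card F)) ≤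
      ‖∑ x, w x‖ := by
    rw [hsum, ← add_sum_erase _ _ (mem_univ J₀), hT0]
    refine le_trans ?_ (norm_sub_le_norm_add _ _)
    rw [Complex.norm_natCast]
    refine sub_le_sub_left ((norm_sum_le_of_le _ fun J hJ => hTb J (mem_erase.1 hJ).1).trans ?_) _
    rw [sum_const, nsmul_eq_mul]
    refine mul_le_mul_of_nonneg_right ?_ (by positivity)
    exact_mod_cast (card_le_univ _).trans (by simp)
  have hlt : ((2 * k * d ^ k : ℕ) : ℝ) < Real.sqrt (Fintype.card F) := by
    rw [Real.lt_sqrt (Nat.cast_nonneg _)]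
    exact_mod_cast hq
  push_cast at hlt
  have hq1 : (1 : ℝ) ≤ Real.sqrt (Fintype.card F) :=
    Real.one_le_sqrt.2 (Nat.one_le_cast.2 Fintype.card_pos)
  have h5 := mul_lt_mul_of_pos_right hlt (show (0 : ℝ) < Real.sqrt (Fintype.card F) by linarith)
  rw [Real.mul_self_sqrt (Nat.cast_nonneg _)] at h5
  have h6 := mul_le_mul_of_nonneg_left hq1 (show (0 : ℝ) ≤ k * (d : ℝ) ^ k by positivity)
  linarith

end FA.CharacterSums
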