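import Mathlib.FieldTheory.RatFunc.AsPolynomial
import Mathlib.FieldTheory.IsAlgClosed.AlgebraicClosure
import Mathlib.FieldTheory.Minpoly.Field
import Mathlib.RingTheory.Polynomial.UniqueFactorization
import Mathlib.RingTheory.IntegralClosure.IntegrallyClosed
import Mathlib.FieldTheory.Finite.Basic
import Mathlib.LinearAlgebra.Matrix.ToLinearEquiv
import Mathlib.LinearAlgebra.Matrix.Adjugate
import Mathlib.Tactic

/-!
# The auxiliary polynomials of Stepanov for characters of order `d`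

If `f ^ k` is no constant times a `d`-th power for `0 < k < d` and the degrees are small, no
nontrivial `∑_(i < d) r i * f ^ (i g)` is divisible by `X ^ q`, `q = d g + 1`: the determinant of
multiplication by it would be divisible by `X ^ q`, hence zero, and `y ^ d = c / f` has degree `d`.
-/

set_option autoImplicit false

noncomputable section

namespace FA.CharacterSums

open Polynomial Finset Matrix

variable {K : Type*} [Field K]

/-- No power `f ^ k`, `0 < k < d`, is a constant times a `d`-th power. -/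
def Generic (d : ℕ) (f : K[X]) : Prop :=
  ∀ k, 0 < k → k < d → ∀ (c : K) (u : K[X]), f ^ k ≠ C c * u ^ d

theorem coeffs_zero_of_aeval {d : ℕ} {f : K[X]} {c : K} (hgen : Generic d f) (hc : c ≠ 0)
    {Ω : Type*} [Field Ω] [IsAlgClosed Ω] [Algebra (RatFunc K) Ω] {y : Ω}
    (hy : algebraMap (RatFunc K) Ω (algebraMap K[X] (RatFunc K) f) * y ^ d =
      algebraMap (RatFunc K) Ω (algebraMap K[X] (RatFunc K) (C c)))
    (hd : 0 < d) (hf : f ≠ 0) (r : Fin d → K[X])
    (h : ∑ i, algebraMap (RatFunc K) Ω (algebraMap K[X] (RatFunc K) (r i)) * y ^ (i : ℕ) = 0) :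
    r = 0 := by
  classical
  obtain ⟨ι, hι⟩ : ∃ ι, ι = algebraMap K[X] (RatFunc K) := ⟨_, rfl⟩
  rw [← hι] at hy h
  have hιi : Function.Injective ι := hι ▸ IsFractionRing.injective _ _
  have hιf : ι f ≠ 0 := (map_ne_zero_iff ι hιi).2 hf
  obtain ⟨a, ha⟩ : ∃ a, a = ι (C c) / ι f := ⟨_, rfl⟩
  have hya : y ^ d = algebraMap (RatFunc K) Ω a := by
    rw [ha, map_div₀, eq_div_iff ((_root_.map_ne_zero _).2 hιf), mul_comm]
    exact hy
  have hint : IsIntegral (RatFunc K) y :=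
    ⟨X ^ d - C a, monic_X_pow_sub_C a hd.ne', by simp [hya]⟩
  obtain ⟨k, hk⟩ : ∃ k, k = (minpoly (RatFunc K) y).natDegree := ⟨_, rfl⟩
  have hk0 : 0 < k := hk ▸ minpoly.natDegree_pos hint
  have hdk : d ≤ k := by
    by_contra hlt
    obtain ⟨s, hs⟩ : ∃ s, s = (minpoly (RatFunc K) y).map (algebraMap (RatFunc K) Ω) := ⟨_, rfl⟩
    have hsp : s.Splits := IsAlgClosed.splits s
    have hsm : s.Monic := hs ▸ (minpoly.monic hint).map _
    have hcard : Multiset.card s.roots = k := by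
      rw [← hsp.natDegree_eq_card_roots, hs, natDegree_map, hk]
    have hroots : s.roots.map (· ^ d) = s.roots.map fun _ => algebraMap (RatFunc K) Ω a := by
      refine Multiset.map_congr rfl fun b hb => ?_
      rw [hs, mem_roots', IsRoot, eval_map_algebraMap] at hb
      have hdiv : minpoly (RatFunc K) y ∣ X ^ d - C a := minpoly.dvd _ _ (by simp [hya])
      simpa [sub_eq_zero] using aeval_eq_zero_of_dvd_aeval_eq_zero hdiv hb.2
    obtain ⟨b, hb⟩ : ∃ b : RatFunc K, b = (-1) ^ k * (minpoly (RatFunc K) y).coeff 0 := ⟨_, rfl⟩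
    have hb' : algebraMap (RatFunc K) Ω b = s.roots.prod := by
      rw [hb, map_mul, map_pow, map_neg, map_one, ← coeff_map, ← hs,
        hsp.coeff_zero_eq_prod_roots_of_monic hsm, hsp.natDegree_eq_card_roots, hcard,
        ← mul_assoc, ← pow_add, ← two_mul, pow_mul, neg_one_sq, one_pow, one_mul]
    have hbd : b ^ d = a ^ k := by
      apply (algebraMap (RatFunc K) Ω).injective
      have hpp := Multiset.prod_map_pow (m := s.roots) (f := id) (n := d)
      simp only [id_eq, Multiset.map_id'] at hpp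
      rw [map_pow, map_pow, hb', ← hpp, hroots, Multiset.map_const', Multiset.prod_replicate,
        hcard]
    obtain ⟨n, e, he, rfl⟩ := IsFractionRing.div_surjective (A := K[X]) b
    have he0 : e ≠ 0 := nonZeroDivisors.ne_zero he
    have key : f ^ k * n ^ d = C (c ^ k) * e ^ d := by
      apply hιi
      rw [ha, ← hι, div_pow, div_pow, div_eq_div_iff
        (pow_ne_zero _ ((map_ne_zero_iff ι hιi).2 he0)) (pow_ne_zero _ hιf)] at hbd
      simp only [map_mul, map_pow]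
      rw [mul_comm, hbd]
    have hn : n ≠ 0 := fun h0 => by
      rw [h0, zero_pow hd.ne', mul_zero, eq_comm] at key
      exact mul_ne_zero (C_ne_zero.2 (pow_ne_zero _ hc)) (pow_ne_zero _ he0) key
    obtain ⟨t, rfl⟩ : n ∣ e := (IsIntegrallyClosed.pow_dvd_pow_iff hd.ne').1
      ((isUnit_C.2 (Ne.isUnit (pow_ne_zero k hc))).dvd_mul_left.1 ⟨f ^ k, by rw [← key]; ring⟩)
    refine hgen k hk0 (not_le.1 hlt) (c ^ k) t (mul_right_cancel₀ (pow_ne_zero d hn) ?_)
    rw [key]
    ring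
  obtain ⟨P, hP⟩ : ∃ P : (RatFunc K)[X], P = ∑ i : Fin d, C (ι (r i)) * X ^ (i : ℕ) := ⟨_, rfl⟩
  have hP0 : P = 0 := by
    by_contra hne
    have h1 : k ≤ P.natDegree := by
      rw [hk]
      refine natDegree_le_natDegree (minpoly.degree_le_of_ne_zero _ _ hne ?_)
      simpa [hP] using h
    have h2 : P.natDegree ≤ d - 1 := by
      rw [hP]
      refine natDegree_sum_le_of_forall_le _ _ fun i _ =>
        (natDegree_C_mul_X_pow_le _ _).trans ?_
      have := i.2
      omega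
    omega
  funext i
  have h1 := congrArg (fun Q : (RatFunc K)[X] => Q.coeff (i : ℕ)) hP0
  simpa [hP, finsetSum_coeff, coeff_C_mul, coeff_X_pow, Fin.val_inj,
    map_eq_zero_iff ι hιi] using h1

variable {d : ℕ} [NeZero d]

/-- Multiplication by `∑ r i * Y ^ i` when `f Y ^ d = c`, cleared of the denominator. -/
def mulMatrix (f : K[X]) (c : K) (r : Fin d → K[X]) : Matrix (Fin d) (Fin d) K[X] :=
  fun j k => r (k - j) * if j ≤ k then f else C c

theorem map_mulMatrix {B : Type*} [CommRing B] (φ : K[X] →+* B) {f : K[X]} {c : K}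
    {r : Fin d → K[X]} {Y : B} (hY : φ f * Y ^ d = φ (C c)) (j : Fin d) :
    ∑ k, φ (mulMatrix f c r j k) * Y ^ (k : ℕ) =
      φ f * Y ^ (j : ℕ) * ∑ i, φ (r i) * Y ^ (i : ℕ) := by
  rw [← Equiv.sum_comp (Equiv.addRight j), mul_sum]
  refine sum_congr rfl fun i _ => ?_
  rw [Equiv.coe_addRight, mulMatrix, add_sub_cancel_right, map_mul]
  have hv : ((i + j : Fin d) : ℕ) = ((i : ℕ) + j) % d := Fin.val_add i j
  rcases lt_or_ge ((i : ℕ) + j) d with h | h
  · rw [Nat.mod_eq_of_lt h] at hv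
    rw [if_pos (by rw [Fin.le_def, hv]; omega), hv, pow_add]
    ring
  · have hi := i.2
    have hj := j.2
    rw [Nat.mod_eq_sub_mod h, Nat.mod_eq_of_lt (by omega)] at hv
    rw [if_neg (by rw [Fin.le_def, hv]; omega), hv, ← hY]
    rw [show φ (r i) * (φ f * Y ^ d) * Y ^ ((i : ℕ) + j - d) =
      φ (r i) * φ f * (Y ^ d * Y ^ ((i : ℕ) + j - d)) by ring, ← pow_add,
      show d + ((i : ℕ) + j - d) = i + j by omega, pow_add]
    ring

omit [NeZero d] in
theorem natDegree_det_mulMatrix {f : K[X]} (c : K) {r : Fin d → K[X]} {A : ℕ}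
    (hr : ∀ i, (r i).natDegree ≤ A) :
    (mulMatrix f c r).det.natDegree ≤ d * (A + f.natDegree) := by
  rw [det_apply]
  refine natDegree_sum_le_of_forall_le _ _ fun σ _ => ?_
  refine le_trans (natDegree_smul_le _ _) ((natDegree_prod_le _ _).trans ?_)
  refine (sum_le_sum (g := fun _ => A + f.natDegree) fun k _ => ?_).trans (by simp)
  rw [mulMatrix]
  refine natDegree_mul_le.trans (Nat.add_le_add (hr _) ?_)
  split_ifs
  · exact le_rfl
  · simp

variable [Fintype K]

local notation "𝕢" => Fintype.card K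

theorem head_eq_zero {f : K[X]} {A g : ℕ} (hg : 𝕢 = d * g + 1) (hA : d * (A + f.natDegree) < 𝕢)
    (hf0 : f.eval 0 ≠ 0) (hgen : Generic d f) {r : Fin d → K[X]}
    (hr : ∀ i, (r i).natDegree ≤ A) (h : X ^ 𝕢 ∣ ∑ i, r i * f ^ ((i : ℕ) * g)) : r = 0 := by
  classical
  have hd : 0 < d := Nat.pos_of_ne_zero (NeZero.ne d)
  have hfne : f ≠ 0 := fun e => hf0 (by simp [e])
  obtain ⟨Mx, hMx⟩ : ∃ Mx, Mx = mulMatrix f (f.eval 0) r := ⟨_, rfl⟩
  -- modulo `X ^ q`
  obtain ⟨π, hπ⟩ : ∃ π, π = Ideal.Quotient.mk (Ideal.span {(X : K[X]) ^ 𝕢}) := ⟨_, rfl⟩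
  have hπ0 : ∀ P : K[X], π P = 0 ↔ X ^ 𝕢 ∣ P := fun P => by
    rw [hπ, Ideal.Quotient.eq_zero_iff_mem, Ideal.mem_span_singleton]
  have hY : π f * π (f ^ g) ^ d = π (C (f.eval 0)) := by
    rw [← sub_eq_zero, ← map_pow, ← map_mul, ← map_sub, hπ0, ← pow_mul, mul_comm g,
      ← pow_succ', ← hg]
    have h1 : X ∣ f - C (f.eval 0) := by
      rw [X_dvd_iff, coeff_sub, coeff_C_zero, coeff_zero_eq_eval_zero, sub_self]
    have h2 := pow_dvd_pow_of_dvd h1 𝕢
    rwa [← FiniteField.expand_card (f - C _), map_sub, expand_C, FiniteField.expand_card] at h2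
  have hrow : ∀ j, (Mx *ᵥ fun k : Fin d => (f ^ g) ^ (k : ℕ)) j ∈
      Ideal.span {(X : K[X]) ^ 𝕢} := fun j => by
    rw [← Ideal.Quotient.eq_zero_iff_mem, ← hπ, Matrix.mulVec, dotProduct, map_sum]
    simp only [map_mul, map_pow, hMx]
    rw [← map_pow, map_mulMatrix π hY]
    have hz : (∑ i, π (r i) * π (f ^ g) ^ (i : ℕ)) = 0 := by
      simp only [← map_pow, ← map_mul, ← map_sum, ← pow_mul, mul_comm g]
      exact (hπ0 _).2 h
    rw [hz, mul_zero]
  have hdet : X ^ 𝕢 ∣ Mx.det := by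
    have h1 : Mx.adjugate *ᵥ (Mx *ᵥ fun k : Fin d => (f ^ g) ^ (k : ℕ)) =
        Mx.det • fun k : Fin d => (f ^ g) ^ (k : ℕ) := by
      rw [mulVec_mulVec, adjugate_mul, smul_mulVec, one_mulVec]
    have h2 := congrFun h1 0
    simp only [Pi.smul_apply, smul_eq_mul, Fin.val_zero, pow_zero, mul_one] at h2
    rw [← h2, ← Ideal.mem_span_singleton, Matrix.mulVec, dotProduct]
    exact Ideal.sum_mem _ fun j _ => Ideal.mul_mem_left _ _ (hrow j)
  have hdet0 : Mx.det = 0 := eq_zero_of_dvd_of_natDegree_lt hdet (by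
    rw [natDegree_X_pow, hMx]
    exact (natDegree_det_mulMatrix _ hr).trans_lt hA)
  obtain ⟨u, hu0, hu⟩ := exists_vecMul_eq_zero_iff.2 hdet0
  -- in the field `K(X)(y)`, `y ^ d = f 0 / f`
  obtain ⟨Φ, hΦ⟩ : ∃ Φ : K[X] →+* AlgebraicClosure (RatFunc K),
      Φ = (algebraMap (RatFunc K) (AlgebraicClosure (RatFunc K))).comp
        (algebraMap K[X] (RatFunc K)) := ⟨_, rfl⟩
  have hΦf : Φ f ≠ 0 := by
    rw [hΦ, RingHom.comp_apply, _root_.map_ne_zero]
    exact (map_ne_zero_iff _ (IsFractionRing.injective _ _)).2 hfne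
  obtain ⟨y, hy⟩ := IsAlgClosed.exists_pow_nat_eq (Φ (C (f.eval 0)) / Φ f) hd
  have hy' : Φ f * y ^ d = Φ (C (f.eval 0)) := by rw [hy, mul_div_cancel₀ _ hΦf]
  have hind : ∀ s : Fin d → K[X], ∑ i, Φ (s i) * y ^ (i : ℕ) = 0 → s = 0 := fun s hs => by
    rw [hΦ] at hs hy'
    exact coeffs_zero_of_aeval hgen hf0 hy' hd hfne s hs
  have h3 : (∑ j, Φ (u j) * y ^ (j : ℕ)) * (Φ f * ∑ i, Φ (r i) * y ^ (i : ℕ)) = 0 := by
    rw [sum_mul]
    have h4 : ∀ k, Φ (∑ j, u j * Mx j k) = 0 := fun k => by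
      rw [show ∑ j, u j * Mx j k = (u ᵥ* Mx) k from rfl, hu, Pi.zero_apply, map_zero]
    calc ∑ j, Φ (u j) * y ^ (j : ℕ) * (Φ f * ∑ i, Φ (r i) * y ^ (i : ℕ))
        = ∑ j, Φ (u j) * ∑ k, Φ (Mx j k) * y ^ (k : ℕ) := sum_congr rfl fun j _ => by
          rw [hMx, map_mulMatrix Φ hy']
          ring
      _ = ∑ k, Φ (∑ j, u j * Mx j k) * y ^ (k : ℕ) := by
          simp only [map_sum, map_mul, mul_sum, sum_mul, mul_assoc]
          exact sum_comm
      _ = 0 := by simp [h4]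
  rcases mul_eq_zero.1 h3 with h4 | h4
  · exact absurd (hind u h4) hu0
  · exact hind r ((mul_eq_zero.1 h4).resolve_left hΦf)

/-- **The auxiliary polynomials are independent.** -/
theorem coeffs_eq_zero {f : K[X]} {A g : ℕ} (hg : 𝕢 = d * g + 1)
    (hA : d * (A + f.natDegree) < 𝕢) (hf0 : f.eval 0 ≠ 0) (hgen : Generic d f) :
    ∀ (J : ℕ) (r : ℕ → Fin d → K[X]), (∀ j i, (r j i).natDegree ≤ A) →
      ∑ j ∈ range J, (∑ i, r j i * f ^ ((i : ℕ) * g)) * X ^ (𝕢 * j) = 0 →
        ∀ j < J, r j = 0 := by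
  intro J
  induction J with
  | zero => intro r _ _ j hj; omega
  | succ J ih =>
    intro r hr h
    rw [Finset.sum_range_succ'] at h
    have e : ∑ j ∈ range J, (∑ i, r (j + 1) i * f ^ ((i : ℕ) * g)) * X ^ (𝕢 * (j + 1)) =
        X ^ 𝕢 * ∑ j ∈ range J, (∑ i, r (j + 1) i * f ^ ((i : ℕ) * g)) * X ^ (𝕢 * j) := by
      rw [mul_sum]
      exact sum_congr rfl fun j _ => by rw [mul_add 𝕢 j 1, mul_one, pow_add]; ring
    rw [e, mul_zero, pow_zero, mul_one] at h
    have h0 : r 0 = 0 := by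
      refine head_eq_zero hg hA hf0 hgen (hr 0) ?_
      rw [eq_neg_of_add_eq_zero_right h]
      exact (dvd_mul_right _ _).neg_right
    rw [h0] at h
    simp only [Pi.zero_apply, zero_mul, sum_const_zero, add_zero] at h
    have h' := (mul_eq_zero.1 h).resolve_left (pow_ne_zero _ X_ne_zero)
    intro j hj
    rcases j with _ | j
    · exact h0
    · exact ih (fun i => r (i + 1)) (fun i => hr _) h' j (by omega)

end FA.CharacterSums
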