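import Fermat.Agent.CharacterSums.Independence
import Fermat.Agent.HyperellipticWeil.Stepanov
import Mathlib.NumberTheory.MulChar.Lemmas
import Mathlib.RingTheory.RootsOfUnity.PrimitiveRoots
import Mathlib.RingTheory.IntegralDomain

/-!
# Stepanov's bound for multiplicative characters of order `d`

`|∑_x χ (f x)| ≤ 20 d (deg f + 1) √q` if no `f ^ k`, `0 < k < d`, is a constant times a `d`-th
power.
-/

set_option autoImplicit false
set_option linter.unusedSectionVars false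

noncomputable section

namespace FA.CharacterSums

open Polynomial Finset FA.HyperellipticWeil

variable {K : Type*} [Field K] [Fintype K] [DecidableEq K] {d : ℕ} [NeZero d]

local notation "𝕢" => Fintype.card K

/-- The solutions of `f x ^ g = a`. -/
def levelSet (f : K[X]) (g : ℕ) (a : K) : Finset K := univ.filter fun x => f.eval x ^ g = a

theorem exists_auxiliary {f : K[X]} {A M J g : ℕ} {a : K} (hg : 𝕢 = d * g + 1)
    (hA : d * (A + f.natDegree) < 𝕢) (hMq : M ≤ 𝕢) (hf0 : f.eval 0 ≠ 0) (hgen : Generic d f)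
    (hcount : M * (A + M * f.natDegree + J + 1) < d * J * (A + 1)) :
    ∃ H : K[X], H ≠ 0 ∧ H.natDegree ≤ (M + d * g) * f.natDegree + A + 𝕢 * J ∧
      ∀ x ∈ levelSet f g a, ∀ l < M, eval x (hasseDeriv l H) = 0 := by
  classical
  have hfne : f ≠ 0 := fun h => hf0 (by simp [h])
  obtain ⟨n, hn⟩ : ∃ n : Fin d → ℕ, n = fun i : Fin d => M + (i : ℕ) * g := ⟨_, rfl⟩
  let ι := Fin d × Fin J × Fin (A + 1)
  obtain ⟨E, hE⟩ : ∃ E : ι → K[X],
      E = fun i => f ^ n i.1 * X ^ (i.2.2 : ℕ) * X ^ (𝕢 * (i.2.1 : ℕ)) := ⟨_, rfl⟩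
  have hex : ∀ (l : ℕ) (i : ι), ∃ D : K[X], (D.natDegree ≤ (i.2.2 : ℕ) + l * f.natDegree) ∧
      (l ≤ n i.1 → hasseDeriv l (f ^ n i.1 * X ^ (i.2.2 : ℕ)) = f ^ (n i.1 - l) * D) :=
    fun l i => by
    by_cases hl : l ≤ n i.1
    · obtain ⟨D, h1, h2⟩ := exists_hasse_quotient hfne (X ^ (i.2.2 : ℕ)) hl
      exact ⟨D, by simpa using h2, fun _ => h1⟩
    · exact ⟨0, by simp, fun h => absurd h hl⟩
  choose D hDdeg hD using hex
  obtain ⟨Q, hQ⟩ : ∃ Q : ℕ → ι → K[X],
      Q = fun l i => C (a ^ (i.1 : ℕ)) * D l i * X ^ (i.2.1 : ℕ) := ⟨_, rfl⟩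
  obtain ⟨e, he⟩ : ∃ e, e = A + M * f.natDegree + J + 1 := ⟨_, rfl⟩
  let Φ : (ι → K) →ₗ[K] (Fin M × Fin e → K) :=
    { toFun := fun v x => ∑ i, v i * (Q x.1 i).coeff x.2
      map_add' := fun v w => by
        funext x
        simp [add_mul, sum_add_distrib]
      map_smul' := fun c v => by
        funext x
        simp [mul_sum, mul_assoc] }
  have hker : LinearMap.ker Φ ≠ ⊥ := by
    refine LinearMap.ker_ne_bot_of_finrank_lt ?_
    rw [Module.finrank_fintype_fun_eq_card, Module.finrank_fintype_fun_eq_card]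
    simp only [ι, Fintype.card_prod, Fintype.card_fin]
    rw [he]
    linarith
  obtain ⟨v, hv, hv0⟩ := (Submodule.ne_bot_iff _).1 hker
  rw [LinearMap.mem_ker] at hv
  obtain ⟨H, hH⟩ : ∃ H : K[X], H = ∑ i, C (v i) * E i := ⟨_, rfl⟩
  have hQdeg : ∀ l < M, ∀ i, (Q l i).natDegree < e := by
    intro l hl i
    rw [hQ]
    refine lt_of_le_of_lt natDegree_mul_le ?_
    have h1 := (natDegree_C_mul_le (a ^ (i.1 : ℕ)) (D l i)).trans (hDdeg l i)
    rw [natDegree_X_pow]
    have h2 := i.2.1.2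
    have h3 := i.2.2.2
    have h4 : l * f.natDegree ≤ M * f.natDegree := Nat.mul_le_mul_right _ hl.le
    omega
  have hzero : ∀ l < M, ∑ i, C (v i) * Q l i = 0 := by
    intro l hl
    ext k
    rw [finsetSum_coeff, coeff_zero]
    simp only [coeff_C_mul]
    by_cases hk : k < e
    · exact congrFun hv (⟨l, hl⟩, ⟨k, hk⟩)
    · exact sum_eq_zero fun i _ => by
        rw [coeff_eq_zero_of_natDegree_lt ((hQdeg l hl i).trans_le (not_lt.1 hk)), mul_zero]
  refine ⟨H, fun hH0 => hv0 ?_, ?_, fun x hx l hl => ?_⟩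
  · have key := coeffs_eq_zero hg hA hf0 hgen J
      (fun j i => if hj : j < J then ∑ k : Fin (A + 1), C (v (i, ⟨j, hj⟩, k)) * X ^ (k : ℕ) else 0)
      ?_ ?_
    · funext i
      obtain ⟨i₀, ⟨j, hj⟩, k⟩ := i
      have h1 := congrFun (key j hj) i₀
      simp only [dif_pos hj, Pi.zero_apply] at h1
      have := congrArg (fun w : K[X] => w.coeff (k : ℕ)) h1
      simpa [finsetSum_coeff, coeff_C_mul, coeff_X_pow, Fin.val_inj] using this
    · intro j i
      split_ifs
      · refine natDegree_sum_le_of_forall_le _ _ fun k _ => (natDegree_C_mul_X_pow_le _ _).trans ?_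
        exact Nat.lt_succ_iff.1 k.2
      · simp
    · refine ((mul_eq_zero (a := f ^ M)).1 ?_).resolve_left (pow_ne_zero _ hfne)
      rw [← hH0, hH, hE, Fintype.sum_prod_type, mul_sum]
      simp only [Fintype.sum_prod_type, sum_range, sum_mul, mul_sum]
      rw [sum_comm]
      refine sum_congr rfl fun i _ => sum_congr rfl fun j _ => ?_
      simp only [dif_pos j.2, Fin.eta, sum_mul, mul_sum]
      exact sum_congr rfl fun k _ => by rw [hn]; ring
  · rw [hH]
    refine natDegree_sum_le_of_forall_le _ _ fun i _ => (natDegree_C_mul_le _ _).trans ?_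
    rw [hE]
    refine natDegree_mul_le.trans ?_
    rw [natDegree_X_pow]
    refine le_trans (Nat.add_le_add_right natDegree_mul_le _) ?_
    rw [natDegree_X_pow]
    have h1 : n i.1 ≤ M + d * g := by
      rw [hn]
      exact Nat.add_le_add_left (Nat.mul_le_mul_right _ i.1.2.le) _
    have h2 := natDegree_pow_le (p := f) (n := n i.1)
    have h3 : n i.1 * f.natDegree ≤ (M + d * g) * f.natDegree := Nat.mul_le_mul_right _ h1
    have h4 := i.2.2.2
    have h5 : 𝕢 * (i.2.1 : ℕ) ≤ 𝕢 * J := Nat.mul_le_mul_left _ i.2.1.2.le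
    omega
  · rw [levelSet, mem_filter] at hx
    rw [hH, map_sum, eval_finsetSum]
    have h : ∀ i, eval x (hasseDeriv l (C (v i) * E i)) =
        eval x f ^ (M - l) * eval x (C (v i) * Q l i) := by
      intro i
      have hn' : l ≤ n i.1 := by
        rw [hn]
        exact hl.le.trans (Nat.le_add_right _ _)
      rw [← smul_eq_C_mul, map_smul, eval_smul, smul_eq_mul, hE,
        eval_hasseDeriv_mul_X_pow_card _ _ (hl.trans_le hMq), hD l i hn', hQ]
      simp only [eval_mul, eval_C, eval_pow, eval_X]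
      have hpow : eval x f ^ (n i.1 - l) = eval x f ^ (M - l) * a ^ (i.1 : ℕ) := by
        rw [hn, ← hx.2, ← pow_mul, ← pow_add]
        congr 1
        simp only
        rw [mul_comm g (i.1 : ℕ)]
        omega
      rw [hpow]
      ring
    simp only [h, ← mul_sum, ← eval_finsetSum, hzero l hl, eval_zero, mul_zero]

theorem levelSet_card_le {f : K[X]} {g : ℕ} (hg : 𝕢 = d * g + 1) (hd : 2 ≤ d)
    (hm : 1 ≤ f.natDegree) (hf0 : f.eval 0 ≠ 0) (hgen : Generic d f)
    (hbig : (10 * d * (f.natDegree + 1)) ^ 2 ≤ 𝕢) (a : K) :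
    ((levelSet f g a).card : ℝ) ≤ (𝕢 : ℝ) / d + 2 * (4 * f.natDegree + 5) * Real.sqrt 𝕢 := by
  obtain ⟨m, hm'⟩ : ∃ m, m = f.natDegree := ⟨_, rfl⟩
  rw [← hm'] at hm hbig ⊢
  obtain ⟨B, hB⟩ : ∃ B, B = 10 * d * (m + 1) := ⟨_, rfl⟩
  rw [← hB] at hbig
  obtain ⟨M, hM⟩ : ∃ M, M = Nat.sqrt 𝕢 := ⟨_, rfl⟩
  have hMsq : M * M ≤ 𝕢 := hM ▸ Nat.sqrt_le 𝕢
  have hMB : B ≤ M := by rw [hM, Nat.le_sqrt']; exact hbig
  have hB2 : 20 * (m + 1) ≤ B := by
    rw [hB]; exact Nat.mul_le_mul_right _ (by omega)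
  have hMp : M < 𝕢 := lt_of_lt_of_le (by nlinarith : M < M * M) hMsq
  have hBM : B * M ≤ 𝕢 := (Nat.mul_le_mul_right _ hMB).trans hMsq
  have hdm : 10 * (d * m) ≤ 𝕢 := by
    rw [hB] at hMB
    nlinarith
  have hmg : m + 1 ≤ g := by
    by_contra hlt
    have : d * g ≤ d * m := Nat.mul_le_mul_left _ (by omega)
    omega
  obtain ⟨A, hA⟩ : ∃ A, A = g - m := ⟨_, rfl⟩
  have hAm : A + m = g := by omega
  obtain ⟨c, hc⟩ : ∃ c, c = 2 * (m + 2) := ⟨_, rfl⟩
  obtain ⟨J, hJ⟩ : ∃ J, J = M / d + c := ⟨_, rfl⟩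
  have hcount : M * (A + M * m + J + 1) < d * J * (A + 1) := by
    have h0 : M < d * (M / d + 1) := by
      have := Nat.div_add_mod M d
      have := Nat.mod_lt M (show d > 0 by omega)
      rw [mul_add, mul_one]
      omega
    have hdJ : M + d * (c - 1) ≤ d * J := by
      rw [hJ, hc, show M / d + 2 * (m + 2) = (M / d + 1) + (2 * (m + 2) - 1) by omega,
        mul_add d (M / d + 1)]
      omega
    have h1 : (M + d * (c - 1)) * (A + 1) ≤ d * J * (A + 1) := Nat.mul_le_mul_right _ hdJ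
    have hJM : J ≤ M + c := by
      rw [hJ]
      exact Nat.add_le_add_right (Nat.div_le_self _ _) _
    have h2 : M * J ≤ M * M + M * c := by
      rw [← mul_add]; exact Nat.mul_le_mul_left _ hJM
    have h3 : M * M * m ≤ 𝕢 * m := Nat.mul_le_mul_right _ hMsq
    have h4 : 5 * (M * c) ≤ 𝕢 := by
      have : 5 * c ≤ B := by omega
      refine le_trans ?_ hBM
      rw [mul_left_comm, mul_comm B]
      exact Nat.mul_le_mul_left _ this
    have h5 : d * (A + 1) + d * m = 𝕢 - 1 + d := by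
      rw [hg, Nat.add_sub_cancel, ← hAm]; ring
    have h6 : 9 * 𝕢 ≤ 10 * (d * (A + 1)) + 10 := by omega
    have h7 : (c - 1) * (9 * 𝕢) ≤ (c - 1) * (10 * (d * (A + 1)) + 10) :=
      Nat.mul_le_mul_left _ h6
    have hc1 : c - 1 = 2 * m + 3 := by omega
    rw [hc1] at h1 h7
    have h8 : 10 * (2 * m + 3) < 𝕢 := by
      have : B * 2 ≤ B * M := Nat.mul_le_mul_left _ (by omega)
      omega
    nlinarith
  obtain ⟨H, hH0, hHdeg, hroot⟩ := exists_auxiliary (a := a) (A := A) (M := M) (J := J) hg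
    (by rw [← hm', hAm, hg]; omega) hMp.le hf0 hgen (by rw [← hm']; exact hcount)
  rw [← hm'] at hHdeg
  have hcard : (levelSet f g a).card * M ≤ H.natDegree := by
    refine le_trans ?_ (Polynomial.card_roots' H)
    rw [← smul_eq_mul, ← sum_const]
    refine le_trans (sum_le_sum (g := fun x => H.roots.count x) fun x hx => ?_)
      ((sum_le_sum_of_subset (subset_univ _)).trans (le_of_eq ?_))
    · rw [count_roots]
      exact rootMultiplicity_of_hasseDeriv hH0 fun l hl => hroot x hx l hl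
    · exact H.roots.sum_count_eq_card fun x _ => mem_univ x
  have key : (levelSet f g a).card * M ≤ 𝕢 * (M / d) + 𝕢 * (4 * m + 5) := by
    refine (hcard.trans hHdeg).trans ?_
    have h1 : M * m ≤ 𝕢 * m := Nat.mul_le_mul_right _ hMp.le
    have h2 : d * g * m ≤ 𝕢 * m := Nat.mul_le_mul_right _ (by omega)
    have h3 : A ≤ 𝕢 := by
      have : g ≤ d * g := Nat.le_mul_of_pos_left g (by omega)
      omega
    rw [hJ, hc]
    nlinarith
  have hMr : (0 : ℝ) < M := Nat.cast_pos.2 (by omega)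
  have hsqrt : Real.sqrt 𝕢 ≤ 2 * M := by
    rw [Real.sqrt_le_left (by positivity)]
    have h1 : 𝕢 < (M + 1) * (M + 1) := hM ▸ Nat.lt_succ_sqrt 𝕢
    have h2 : (M + 1) * (M + 1) ≤ 2 * M * (2 * M) := Nat.mul_le_mul (by omega) (by omega)
    have h3 : ((𝕢 : ℕ) : ℝ) ≤ ((2 * M * (2 * M) : ℕ) : ℝ) := Nat.cast_le.2 (h1.le.trans h2)
    push_cast at h3
    linarith
  refine le_of_mul_le_mul_right ?_ hMr
  have h1 : ((levelSet f g a).card : ℝ) * M ≤
      (𝕢 : ℝ) * ((M / d : ℕ) : ℝ) + 𝕢 * (4 * m + 5) := by exact_mod_cast key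
  refine h1.trans ?_
  rw [add_mul]
  refine add_le_add ?_ ?_
  · refine (mul_le_mul_of_nonneg_left Nat.cast_div_le (Nat.cast_nonneg 𝕢)).trans (le_of_eq ?_)
    ring
  · have h2 := mul_le_mul_of_nonneg_left hsqrt (Real.sqrt_nonneg 𝕢)
    rw [Real.mul_self_sqrt (Nat.cast_nonneg 𝕢)] at h2
    have h3 := mul_le_mul_of_nonneg_left h2 (show (0 : ℝ) ≤ 4 * m + 5 by positivity)
    linarith

theorem exists_generator_primitive (χ : MulChar K ℂ) :
    ∃ w : Kˣ, (∀ x, x ∈ Subgroup.zpowers w) ∧ IsPrimitiveRoot (χ w) (orderOf χ) ∧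
      orderOf χ ∣ orderOf w := by
  obtain ⟨w, hw⟩ := IsCyclic.exists_generator (α := Kˣ)
  refine ⟨w, hw, ⟨?_, fun l hl => ?_⟩, ?_⟩
  · rw [← MulChar.pow_apply_coe, pow_orderOf_eq_one, MulChar.one_apply_coe]
  · rw [orderOf_dvd_iff_pow_eq_one, MulChar.eq_iff hw, MulChar.pow_apply_coe, hl,
      MulChar.one_apply_coe]
  · rw [orderOf_eq_card_of_forall_mem_zpowers hw]
    refine orderOf_dvd_of_pow_eq_one ((MulChar.eq_iff hw _ _).2 ?_)
    rw [MulChar.pow_apply_coe, MulChar.one_apply_coe, ← map_pow, ← Units.val_pow_eq_pow_val,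
      pow_card_eq_one', Units.val_one, map_one]

theorem norm_mulChar_le (χ : MulChar K ℂ) (y : K) : ‖χ y‖ ≤ 1 := by
  rcases eq_or_ne y 0 with rfl | hy
  · rw [MulChar.map_zero, norm_zero]
    exact zero_le_one
  refine le_of_eq (Complex.norm_eq_one_of_pow_eq_one (n := 𝕢 - 1) ?_ ?_)
  · rw [← map_pow, FiniteField.pow_card_sub_one_eq_one y hy, map_one]
  · exact Nat.sub_ne_zero_of_lt Fintype.one_lt_card

theorem norm_sum_le_of_large {f : K[X]} (χ : MulChar K ℂ) (hd : d = orderOf χ) (hd2 : 2 ≤ d)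
    (hm : 1 ≤ f.natDegree) (hf0 : f.eval 0 ≠ 0) (hgen : Generic d f)
    (hbig : (10 * d * (f.natDegree + 1)) ^ 2 ≤ 𝕢) :
    ‖∑ x : K, χ (f.eval x)‖ ≤ 20 * d * (f.natDegree + 1) * Real.sqrt 𝕢 := by
  classical
  obtain ⟨w, hw, hζ, hdvd⟩ := exists_generator_primitive χ
  rw [← hd] at hζ hdvd
  have hwo : orderOf w = 𝕢 - 1 := by
    rw [orderOf_eq_card_of_forall_mem_zpowers hw, Nat.card_units, Nat.card_eq_fintype_card]
  obtain ⟨g, hg'⟩ := hdvd
  have hg : 𝕢 = d * g + 1 := by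
    have := Fintype.one_lt_card (α := K)
    omega
  have hg0 : g ≠ 0 := by
    rintro rfl
    have := Fintype.one_lt_card (α := K)
    omega
  obtain ⟨N, hN⟩ : ∃ N : ℕ → Finset K,
      N = fun j => levelSet f g ((w : K) ^ (g * j)) := ⟨_, rfl⟩
  -- each non-zero value lies in exactly one class
  have hclass : ∀ x, f.eval x ≠ 0 → ∃ j < d, χ (f.eval x) = χ w ^ j ∧
      ∀ i < d, x ∈ N i ↔ i = j := by
    intro x hx
    obtain ⟨k, hk⟩ := mem_powers_iff_mem_zpowers.2 (hw (Units.mk0 _ hx))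
    have hk' : f.eval x = (w : K) ^ k := by
      rw [← Units.val_pow_eq_pow_val, show w ^ k = Units.mk0 _ hx from hk, Units.val_mk0]
    refine ⟨k % d, Nat.mod_lt _ (by omega), ?_, fun i hi => ?_⟩
    · rw [hk', map_pow]
      exact pow_eq_pow_mod k hζ.pow_eq_one
    · simp only [hN, levelSet, mem_filter]
      rw [hk', ← pow_mul, ← Units.val_pow_eq_pow_val,
        ← Units.val_pow_eq_pow_val, Units.val_inj, pow_inj_mod, hg', mul_comm k g, mul_comm d g,
        Nat.mul_mod_mul_left, Nat.mul_mod_mul_left, Nat.mod_eq_of_lt hi,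
        Nat.mul_left_cancel_iff (Nat.pos_of_ne_zero hg0)]
      exact ⟨fun h => h.2.symm, fun h => ⟨mem_univ _, h.symm⟩⟩
  have hnot : ∀ x, f.eval x = 0 → ∀ i, x ∉ N i := fun x hx i h => by
    simp only [hN, levelSet, mem_filter, hx, zero_pow hg0] at h
    exact pow_ne_zero _ w.ne_zero h.2.symm
  have e : ∀ x, χ (f.eval x) = ∑ j ∈ range d, if x ∈ N j then χ w ^ j else 0 := by
    intro x
    rcases eq_or_ne (f.eval x) 0 with hx | hx
    · rw [hx, MulChar.map_zero]
      exact (sum_eq_zero fun j _ => if_neg (hnot x hx j)).symm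
    · obtain ⟨j, hj, hχ, hiff⟩ := hclass x hx
      rw [sum_eq_single j (fun i hi hij => if_neg fun h => hij ((hiff i (mem_range.1 hi)).1 h))
        (fun h => absurd (mem_range.2 hj) h), if_pos ((hiff j hj).2 rfl), hχ]
  obtain ⟨T, hT⟩ : ∃ T : ℝ, T = (𝕢 : ℝ) / d + 2 * (4 * f.natDegree + 5) * Real.sqrt 𝕢 := ⟨_, rfl⟩
  have hNT : ∀ j, ((N j).card : ℝ) ≤ T := fun j => by
    rw [hN, hT]
    exact levelSet_card_le hg hd2 hm hf0 hgen hbig _
  have hsum : ∑ x : K, χ (f.eval x) = ∑ j ∈ range d, χ w ^ j * (((N j).card : ℂ) - (T : ℂ)) := by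
    simp only [mul_sub, sum_sub_distrib, ← sum_mul, hζ.geom_sum_eq_zero hd2, zero_mul, sub_zero]
    rw [sum_congr rfl fun x _ => e x, sum_comm]
    refine sum_congr rfl fun j _ => ?_
    rw [sum_ite_mem, univ_inter, sum_const, nsmul_eq_mul, mul_comm]
  have hcover : (𝕢 : ℝ) ≤ f.natDegree + ∑ j ∈ range d, ((N j).card : ℝ) := by
    have h : 𝕢 ≤ f.roots.toFinset.card + ∑ j ∈ range d, (N j).card := by
      refine le_trans ?_ ((card_union_le _ _).trans (Nat.add_le_add_left card_biUnion_le _))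
      rw [← card_univ]
      refine card_le_card fun x _ => ?_
      rw [mem_union]
      rcases eq_or_ne (f.eval x) 0 with hx | hx
      · exact Or.inl (Multiset.mem_toFinset.2 ((mem_roots fun h => hf0 (by simp [h])).2 hx))
      · obtain ⟨j, hj, -, hiff⟩ := hclass x hx
        exact Or.inr (mem_biUnion.2 ⟨j, mem_range.2 hj, (hiff j hj).2 rfl⟩)
    have h' := h.trans (Nat.add_le_add_right
      ((Multiset.toFinset_card_le _).trans (card_roots' f)) _)
    exact_mod_cast h'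
  rw [hsum]
  refine (norm_sum_le _ _).trans ((sum_le_sum (g := fun j => T - ((N j).card : ℝ))
    fun j _ => ?_).trans ?_)
  · rw [norm_mul, norm_pow, ← Complex.ofReal_natCast, ← Complex.ofReal_sub,
      Complex.norm_real, Real.norm_eq_abs, abs_sub_comm, abs_of_nonneg (sub_nonneg.2 (hNT j))]
    exact mul_le_of_le_one_left (sub_nonneg.2 (hNT j))
      (pow_le_one₀ (norm_nonneg _) (norm_mulChar_le χ _))
  · have hdr : (d : ℝ) ≠ 0 := Nat.cast_ne_zero.2 (by omega)
    rw [sum_sub_distrib, sum_const, card_range, nsmul_eq_mul, hT, mul_add, mul_div_cancel₀ _ hdr]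
    have h1 : (1 : ℝ) ≤ Real.sqrt 𝕢 :=
      Real.one_le_sqrt.2 (Nat.one_le_cast.2 Fintype.card_pos)
    have h2 : (1 : ℝ) ≤ d := Nat.one_le_cast.2 (by omega)
    have h3 : (f.natDegree : ℝ) ≤ f.natDegree * ((d : ℝ) * Real.sqrt 𝕢) :=
      le_mul_of_one_le_right (Nat.cast_nonneg _) (one_le_mul_of_one_le_of_one_le h2 h1)
    have h4 : 0 ≤ (d : ℝ) * Real.sqrt 𝕢 := by positivity
    have h5 := mul_nonneg h4 (Nat.cast_nonneg (α := ℝ) f.natDegree)
    linarith

/-- **Weil's bound by Stepanov's method, for every order.** -/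
theorem norm_sum_le {f : K[X]} (χ : MulChar K ℂ) (hd : d = orderOf χ) (hd2 : 2 ≤ d)
    (hgen : Generic d f) :
    ‖∑ x : K, χ (f.eval x)‖ ≤ 20 * d * (f.natDegree + 1) * Real.sqrt 𝕢 := by
  classical
  have hm : 1 ≤ f.natDegree := by
    by_contra h
    refine hgen 1 one_pos (by omega) (f.coeff 0) 1 ?_
    rw [pow_one, one_pow, mul_one]
    exact eq_C_of_natDegree_eq_zero (by omega)
  by_cases hbig : (10 * d * (f.natDegree + 1)) ^ 2 ≤ 𝕢
  · have hfne : f ≠ 0 := fun h => by simp [h] at hm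
    obtain ⟨x₀, hx₀⟩ : ∃ x₀, f.eval x₀ ≠ 0 := by
      by_contra! h
      have h1 := Polynomial.card_le_degree_of_subset_roots (p := f) (Z := univ) fun x _ => by
        rw [mem_roots hfne]
        exact h x
      rw [card_univ] at h1
      have : f.natDegree + 1 ≤ (10 * d * (f.natDegree + 1)) ^ 2 :=
        (Nat.le_mul_of_pos_left _ (by positivity)).trans (Nat.le_self_pow two_ne_zero _)
      omega
    have hsum : ∑ x : K, χ (f.eval x) = ∑ x : K, χ ((f.comp (X + C x₀)).eval x) := by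
      rw [← Equiv.sum_comp (Equiv.addRight x₀) fun x => χ (f.eval x)]
      exact sum_congr rfl fun x _ => by simp [eval_comp]
    have hdeg : (f.comp (X + C x₀)).natDegree = f.natDegree := by
      rw [natDegree_comp, natDegree_X_add_C, mul_one]
    rw [hsum, ← hdeg]
    refine norm_sum_le_of_large χ hd hd2 (by rwa [hdeg]) (by simpa [eval_comp]) ?_ (by rwa [hdeg])
    intro k hk hkd c u h
    refine hgen k hk hkd c (u.comp (X - C x₀)) ?_
    have := congrArg (fun v : K[X] => v.comp (X - C x₀)) h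
    simpa [comp_assoc] using this
  · refine (norm_sum_le_of_le _ fun x _ => norm_mulChar_le χ (f.eval x)).trans ?_
    rw [sum_const, card_univ, nsmul_one]
    have h1 : Real.sqrt 𝕢 ≤ 10 * d * (f.natDegree + 1) := by
      rw [Real.sqrt_le_left (by positivity)]
      have h : (𝕢 : ℝ) ≤ (((10 * d * (f.natDegree + 1)) ^ 2 : ℕ) : ℝ) :=
        Nat.cast_le.2 (not_le.1 hbig).le
      push_cast at h
      exact h
    refine le_trans (le_of_eq (Real.mul_self_sqrt (Nat.cast_nonneg 𝕢)).symm)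
      (mul_le_mul_of_nonneg_right (h1.trans ?_) (Real.sqrt_nonneg _))
    have : 0 ≤ (d : ℝ) * (f.natDegree + 1) := by positivity
    linarith

end FA.CharacterSums
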